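import Mathlib.RingTheory.IntegralClosure.Algebra.Basic
import Mathlib.FieldTheory.IsAlgClosed.AlgebraicClosure
import Mathlib.RingTheory.Polynomial.Basic
import Mathlib.Tactic.Ring
import Mathlib.Tactic.LinearCombination

/-!
# Chart rings of a function field

`intSet O S` is the integral closure of `O[S]` in a field, and `chartF O E s` the elements of `F`
which lie in it over an extension `E`.  The main result `exists_torsion_bound` bounds the torsion
of the quotient of the chart of `O[u, u⁻¹]` by the two charts, for finite charts (`ChartFinite`).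
-/

set_option autoImplicit false

noncomputable section

namespace FLTAgent.CarayolSquare

open Polynomial

variable (O : Type*) [CommRing O] {E : Type*} [Field E] [Algebra O E]

/-- Elements integral over `O[s]`. -/
def intSet (s : Set E) : Subring E :=
  (integralClosure (Algebra.adjoin O s) E).toSubring

variable {O}

theorem mem_intSet {s : Set E} {x : E} :
    x ∈ intSet O s ↔ IsIntegral (Algebra.adjoin O s) x := Iff.rfl

theorem mem_intSet_of_mem_adjoin {s : Set E} {x : E} (hx : x ∈ Algebra.adjoin O s) :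
    x ∈ intSet O s :=
  isIntegral_algebraMap (A := E) (x := (⟨x, hx⟩ : Algebra.adjoin O s))

theorem algebraMap_mem_intSet (s : Set E) (c : O) : algebraMap O E c ∈ intSet O s :=
  mem_intSet_of_mem_adjoin (Subalgebra.algebraMap_mem _ c)

theorem subset_intSet (s : Set E) : s ⊆ intSet O s := fun _ hx =>
  mem_intSet_of_mem_adjoin (Algebra.subset_adjoin hx)

theorem intSet_mono {s t : Set E} (h : s ⊆ t) : intSet O s ≤ intSet O t := by
  intro x hx
  obtain ⟨P, hP, hPx⟩ := hx
  refine ⟨P.map (Subalgebra.inclusion (Algebra.adjoin_mono h)).toRingHom, hP.map _, ?_⟩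
  rw [eval₂_map]
  exact hPx

theorem mem_intSet_of_pow {s : Set E} {x : E} {n : ℕ} (hn : 0 < n) (h : x ^ n ∈ intSet O s) :
    x ∈ intSet O s :=
  IsIntegral.of_pow hn h

/-- Multiplying by a power of `u` kills denominators in `u`. -/
theorem exists_pow_mul_mem_intSet {u x : E} (hu : u ≠ 0) (hx : x ∈ intSet O {u, u⁻¹}) :
    ∃ N : ℕ, u ^ N * x ∈ intSet O {u} := by
  classical
  have key : ∀ a ∈ Algebra.adjoin O ({u, u⁻¹} : Set E),
      ∃ N : ℕ, u ^ N * a ∈ Algebra.adjoin O ({u} : Set E) := by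
    intro a ha
    have hu' : u ∈ Algebra.adjoin O ({u} : Set E) := Algebra.self_mem_adjoin_singleton O u
    induction ha using Algebra.adjoin_induction with
    | mem z hz =>
      rcases hz with hz | hz
      · subst hz
        exact ⟨0, by rw [pow_zero, one_mul]; exact hu'⟩
      · rw [Set.mem_singleton_iff] at hz
        subst hz
        exact ⟨1, by rw [pow_one, mul_inv_cancel₀ hu]; exact one_mem _⟩
    | algebraMap r => exact ⟨0, by rw [pow_zero, one_mul]; exact Subalgebra.algebraMap_mem _ r⟩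
    | add a b _ _ ha hb =>
      obtain ⟨M, hM⟩ := ha
      obtain ⟨N, hN⟩ := hb
      refine ⟨M + N, ?_⟩
      rw [show u ^ (M + N) * (a + b) = u ^ N * (u ^ M * a) + u ^ M * (u ^ N * b) by ring]
      exact add_mem (mul_mem (pow_mem hu' N) hM) (mul_mem (pow_mem hu' M) hN)
    | mul a b _ _ ha hb =>
      obtain ⟨M, hM⟩ := ha
      obtain ⟨N, hN⟩ := hb
      refine ⟨M + N, ?_⟩
      rw [show u ^ (M + N) * (a * b) = (u ^ M * a) * (u ^ N * b) by ring]
      exact mul_mem hM hN
  obtain ⟨P, hP, hPx⟩ := hx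
  choose N hN using fun i : ℕ => key _ (P.coeff i).2
  let N₀ := ∑ i ∈ Finset.range P.natDegree, N i
  refine ⟨N₀, ?_⟩
  have hpx : eval₂ (algebraMap (Algebra.adjoin O ({u, u⁻¹} : Set E)) E) x P = 0 := hPx
  rw [eval₂_eq_sum_range, Finset.sum_range_succ, hP.coeff_natDegree, map_one, one_mul] at hpx
  set d := P.natDegree with hd
  have hco : ∀ i, i < d →
      u ^ (N₀ * (d - i)) * (P.coeff i : E) ∈ Algebra.adjoin O ({u} : Set E) := by
    intro i hi
    have h1 : N i ≤ N₀ * (d - i) :=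
      le_trans (Finset.single_le_sum (fun _ _ => Nat.zero_le _) (Finset.mem_range.mpr hi))
        (Nat.le_mul_of_pos_right _ (by omega))
    obtain ⟨e, he⟩ := Nat.exists_eq_add_of_le h1
    rw [he, pow_add, mul_comm (u ^ N i), mul_assoc]
    exact mul_mem (pow_mem (Algebra.self_mem_adjoin_singleton O u) e) (hN i)
  let R : (Algebra.adjoin O ({u} : Set E))[X] :=
    X ^ d + ∑ i : Fin d, C ⟨_, hco i i.2⟩ * X ^ (i : ℕ)
  refine ⟨R, monic_X_pow_add ((degree_sum_fin_lt _)), ?_⟩
  have h0 : (u ^ N₀) ^ d * ((∑ i ∈ Finset.range d, (P.coeff i : E) * x ^ i) + x ^ d) = 0 := by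
    rw [show (∑ i ∈ Finset.range d, (P.coeff i : E) * x ^ i) + x ^ d = 0 from hpx, mul_zero]
  rw [mul_add, Finset.mul_sum, ← mul_pow, add_comm] at h0
  simp only [R, eval₂_add, eval₂_finsetSum, eval₂_mul, eval₂_C, eval₂_pow, eval₂_X]
  rw [← h0, ← Fin.sum_univ_eq_sum_range (fun i => (u ^ N₀) ^ d * ((P.coeff i : E) * x ^ i))]
  refine congrArg _ (Finset.sum_congr rfl fun i _ => ?_)
  show u ^ (N₀ * (d - i)) * (P.coeff i : E) * (u ^ N₀ * x) ^ (i : ℕ) = _
  rw [mul_pow, ← pow_mul, ← pow_mul]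
  have e : N₀ * d = N₀ * (d - i) + N₀ * i := by rw [← mul_add, Nat.sub_add_cancel i.2.le]
  rw [e, pow_add]
  ring

variable (O)

variable {F : Type*} [Field F] [Algebra O F] [Algebra F E] [IsScalarTower O F E]

/-- Elements of `F` integral over `O[u]`, seen inside `E`. -/
def chartF (E : Type*) [Field E] [Algebra O E] [Algebra F E] (s : Set F) : Subring F :=
  (intSet O (algebraMap F E '' s)).comap (algebraMap F E)

variable {O}

omit [Algebra O F] in
theorem mem_chartF_self (E : Type*) [Field E] [Algebra O E] [Algebra F E] {s : Set F} {x : F}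
    (hx : x ∈ s) : x ∈ chartF O E s :=
  subset_intSet _ ⟨x, hx, rfl⟩

theorem algebraMap_mem_chartF (s : Set F) (c : O) : algebraMap O F c ∈ chartF O E s := by
  show algebraMap F E (algebraMap O F c) ∈ intSet O _
  rw [← IsScalarTower.algebraMap_apply]
  exact algebraMap_mem_intSet _ c

theorem adjoin_le_chartF (s : Set F) {x : F} (hx : x ∈ Algebra.adjoin O s) :
    x ∈ chartF O E s := by
  induction hx using Algebra.adjoin_induction with
  | mem z hz => exact mem_chartF_self E hz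
  | algebraMap r => exact algebraMap_mem_chartF s r
  | add a b _ _ ha hb => exact add_mem ha hb
  | mul a b _ _ ha hb => exact mul_mem ha hb

omit [Algebra O F] [IsScalarTower O F E] in
theorem exists_pow_mul_mem_chartF {u x : F} (hu : u ≠ 0) (hx : x ∈ chartF O E {u, u⁻¹}) :
    ∃ N : ℕ, u ^ N * x ∈ chartF O E {u} := by
  have hx' : algebraMap F E x ∈ intSet O {algebraMap F E u, (algebraMap F E u)⁻¹} := by
    have h : algebraMap F E x ∈ intSet O (algebraMap F E '' {u, u⁻¹}) := hx
    rwa [Set.image_pair, map_inv₀] at h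
  obtain ⟨N, hN⟩ := exists_pow_mul_mem_intSet ((_root_.map_ne_zero _).mpr hu) hx'
  refine ⟨N, ?_⟩
  show algebraMap F E (u ^ N * x) ∈ intSet O _
  rwa [Set.image_singleton, map_mul, map_pow]

/-- The `j`-th graded piece: `c` with `c ^ m * f ^ j` in the chart. -/
def piece (O : Type*) [CommRing O] (E : Type*) [Field E] [Algebra O E] {F : Type*} [Field F]
    [Algebra O F] [Algebra F E] [IsScalarTower O F E] (s : Set F) {m : ℕ} (hm : 0 < m) {β : E}
    {f : F} (hβ : β ^ m = algebraMap F E f) (j : ℕ) :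
    Submodule (Algebra.adjoin O s) F where
  carrier := {c | c ^ m * f ^ j ∈ chartF O E s}
  zero_mem' := by
    show (0 : F) ^ m * f ^ j ∈ chartF O E s
    rw [zero_pow hm.ne', zero_mul]
    exact zero_mem _
  add_mem' {a b} ha hb := by
    have key : ∀ c : F, c ^ m * f ^ j ∈ chartF O E s ↔
        algebraMap F E c * β ^ j ∈ intSet O (algebraMap F E '' s) := by
      intro c
      have e : algebraMap F E (c ^ m * f ^ j) = (algebraMap F E c * β ^ j) ^ m := by
        rw [map_mul, map_pow, map_pow, ← hβ, mul_pow, ← pow_mul, ← pow_mul, mul_comm j m]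
      constructor
      · intro h
        refine mem_intSet_of_pow hm ?_
        rw [← e]
        exact h
      · intro h
        show algebraMap F E (c ^ m * f ^ j) ∈ intSet O _
        rw [e]
        exact pow_mem h m
    show (a + b) ^ m * f ^ j ∈ chartF O E s
    rw [key, map_add, add_mul]
    exact add_mem ((key a).mp ha) ((key b).mp hb)
  smul_mem' r c hc := by
    show ((r : F) * c) ^ m * f ^ j ∈ chartF O E s
    rw [mul_pow, mul_assoc]
    exact mul_mem (pow_mem (adjoin_le_chartF s r.2) m) hc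

theorem mem_piece {s : Set F} {m : ℕ} {hm : 0 < m} {β : E} {f : F}
    {hβ : β ^ m = algebraMap F E f} {j : ℕ} {c : F} :
    c ∈ piece O E s hm hβ j ↔ c ^ m * f ^ j ∈ chartF O E s := Iff.rfl

/-- Finiteness of a chart: it lies in a finite module over `O[s]`, and every element has a
nonzero multiple in it. -/
structure ChartFinite (O : Type*) [CommRing O] (E : Type*) [Field E] [Algebra O E] {F : Type*}
    [Field F] [Algebra O F] [Algebra F E] (u : F) : Prop where
  fg : ∃ N : Submodule (Algebra.adjoin O ({u} : Set F)) F, N.FG ∧ ∀ x ∈ chartF O E {u}, x ∈ N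
  den : ∀ x : F, ∃ d : F, d ≠ 0 ∧ d ∈ chartF O E {u} ∧ d * x ∈ chartF O E {u}

theorem piece_fg [IsNoetherianRing O] {u : F} (hc : ChartFinite O E u) {m : ℕ} (hm : 0 < m)
    {β : E} {f : F} (hf : f ≠ 0) (hβ : β ^ m = algebraMap F E f) (j : ℕ) :
    (piece O E {u} hm hβ j).FG := by
  obtain ⟨N, hN, hchart⟩ := hc.fg
  obtain ⟨d, hd, hdc, hdx⟩ := hc.den ((f ^ j)⁻¹)
  let φ : F →ₗ[Algebra.adjoin O ({u} : Set F)] F :=
    LinearMap.mulLeft (Algebra.adjoin O ({u} : Set F)) d
  have hinj : Function.Injective φ := fun a b h => mul_left_cancel₀ hd h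
  have hle : (piece O E {u} hm hβ j).map φ ≤ N := by
    rintro _ ⟨c, hcc, rfl⟩
    refine hchart _ ?_
    show algebraMap F E (d * c) ∈ intSet O _
    refine mem_intSet_of_pow hm ?_
    have e : (d * c) ^ m = d ^ (m - 1) * (d * (f ^ j)⁻¹) * (c ^ m * f ^ j) := by
      have hm' : m = (m - 1) + 1 := by omega
      have hfj : f ^ j ≠ 0 := pow_ne_zero j hf
      rw [mul_pow, hm', pow_succ, pow_succ, Nat.add_sub_cancel]
      field_simp
    rw [← map_pow, e]
    exact mul_mem (mul_mem (pow_mem hdc _) hdx) hcc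
  have : IsNoetherianRing (Algebra.adjoin O ({u} : Set F)) :=
    isNoetherianRing_of_fg ⟨{u}, by simp⟩
  have : IsNoetherian (Algebra.adjoin O ({u} : Set F)) N := isNoetherian_of_fg_of_noetherian N hN
  exact Submodule.fg_of_fg_map_injective φ hinj (isNoetherian_submodule.mp inferInstance _ hle)

/-- The torsion of the quotient of the middle piece by the two outer pieces is bounded. -/
theorem exists_torsion_bound [IsNoetherianRing O] (π : O) {u : F} (hu : u ≠ 0)
    (hc : ChartFinite O E u) {m : ℕ} (hm : 0 < m) {β : E} {f : F} (hf : f ≠ 0)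
    (hβ : β ^ m = algebraMap F E f) (j : ℕ) :
    ∃ c₀ : ℕ, ∀ (k : ℕ) (z : F), z ^ m * f ^ j ∈ chartF O E {u, u⁻¹} →
      (∃ a a' : F, a ^ m * f ^ j ∈ chartF O E {u} ∧ a' ^ m * f ^ j ∈ chartF O E {u⁻¹} ∧
        algebraMap O F π ^ k * z = a + a') →
      ∃ a a' : F, a ^ m * f ^ j ∈ chartF O E {u} ∧ a' ^ m * f ^ j ∈ chartF O E {u⁻¹} ∧
        algebraMap O F π ^ c₀ * z = a + a' := by
  classical
  obtain ⟨G, hG⟩ := piece_fg hc hm hf hβ j
  let W : Submodule O F :=
    (piece O E {u} hm hβ j).restrictScalars O ⊔ (piece O E {u⁻¹} hm hβ j).restrictScalars O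
  have hW : ∀ {z : F}, z ∈ W ↔ ∃ a a' : F, a ^ m * f ^ j ∈ chartF O E {u} ∧
      a' ^ m * f ^ j ∈ chartF O E {u⁻¹} ∧ z = a + a' := by
    intro z
    constructor
    · intro hz
      obtain ⟨a, ha, a', ha', rfl⟩ := Submodule.mem_sup.mp hz
      exact ⟨a, a', ha, ha', rfl⟩
    · rintro ⟨a, a', ha, ha', rfl⟩
      exact Submodule.add_mem_sup ha ha'
  have hGm : ∀ g ∈ G, g ^ m * f ^ j ∈ chartF O E {u} := fun g hg =>
    (hG ▸ Submodule.subset_span hg : g ∈ piece O E {u} hm hβ j)
  have hshift : ∀ g ∈ G, ∃ N : ℕ, u⁻¹ ^ N * g ∈ piece O E {u⁻¹} hm hβ j := by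
    intro g hg
    have h1 : g ^ m * f ^ j ∈ chartF O E {u⁻¹, u⁻¹⁻¹} := by
      have hle : ({u} : Set F) ⊆ {u⁻¹, u⁻¹⁻¹} := by
        rw [inv_inv]; exact Set.singleton_subset_iff.mpr (Set.mem_insert_of_mem _ rfl)
      exact intSet_mono (Set.image_mono hle) (hGm g hg)
    obtain ⟨N, hN⟩ := exists_pow_mul_mem_chartF (inv_ne_zero hu) h1
    refine ⟨N, mem_piece.mpr ?_⟩
    have e : (u⁻¹ ^ N * g) ^ m * f ^ j = u⁻¹ ^ (N * (m - 1)) * (u⁻¹ ^ N * (g ^ m * f ^ j)) := by
      rw [mul_pow, ← pow_mul, ← mul_assoc, ← mul_assoc, ← pow_add]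
      congr 3
      rw [← Nat.mul_succ, Nat.succ_eq_add_one, Nat.sub_add_cancel hm]
    rw [e]
    exact mul_mem (pow_mem (mem_chartF_self E (Set.mem_singleton u⁻¹)) _) hN
  obtain ⟨Ng, hNg⟩ : ∃ Ng : F → ℕ, ∀ g ∈ G, u⁻¹ ^ Ng g * g ∈ piece O E {u⁻¹} hm hβ j :=
    ⟨fun g => if h : g ∈ G then Classical.choose (hshift g h) else 0, fun g hg => by
      simp only [dif_pos hg]; exact Classical.choose_spec (hshift g hg)⟩
  let T : Submodule O F :=
    Submodule.span O (↑(G.biUnion fun g => (Finset.range (Ng g)).image fun i => u⁻¹ ^ i * g))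
  have hT : T.FG := ⟨_, rfl⟩
  have hgen : ∀ g ∈ G, ∀ i : ℕ, u⁻¹ ^ i * g ∈ W ⊔ T := by
    intro g hg i
    by_cases hi : i < Ng g
    · exact Submodule.mem_sup_right (Submodule.subset_span (Finset.mem_coe.mpr
        (Finset.mem_biUnion.mpr ⟨g, hg, Finset.mem_image.mpr ⟨i, Finset.mem_range.mpr hi, rfl⟩⟩)))
    · obtain ⟨e, rfl⟩ := Nat.exists_eq_add_of_le (not_lt.mp hi)
      refine Submodule.mem_sup_left (Submodule.mem_sup_right ?_)
      rw [pow_add, mul_comm (u⁻¹ ^ Ng g), mul_assoc]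
      exact (piece O E {u⁻¹} hm hβ j).smul_mem
        ⟨u⁻¹ ^ e, pow_mem (Algebra.self_mem_adjoin_singleton O u⁻¹) e⟩ (hNg g hg)
  have hcover : ∀ z, z ^ m * f ^ j ∈ chartF O E {u, u⁻¹} → z ∈ W ⊔ T := by
    intro z hz
    obtain ⟨N, hN⟩ := exists_pow_mul_mem_chartF hu hz
    have hy : u ^ N * z ∈ piece O E {u} hm hβ j := by
      rw [mem_piece]
      have e : (u ^ N * z) ^ m * f ^ j = u ^ (N * (m - 1)) * (u ^ N * (z ^ m * f ^ j)) := by
        rw [mul_pow, ← pow_mul, ← mul_assoc, ← mul_assoc, ← pow_add]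
        congr 3
        rw [← Nat.mul_succ, Nat.succ_eq_add_one, Nat.sub_add_cancel hm]
      rw [e]
      exact mul_mem (pow_mem (mem_chartF_self E (Set.mem_singleton u)) _) hN
    suffices h : ∀ y ∈ Submodule.span (Algebra.adjoin O ({u} : Set F)) (G : Set F),
        u⁻¹ ^ N * y ∈ W ⊔ T by
      have := h _ (hG.symm ▸ hy)
      rwa [← mul_assoc, ← mul_pow, inv_mul_cancel₀ hu, one_pow, one_mul] at this
    intro y hy'
    clear hy hN hz
    rw [Submodule.mem_span_finset] at hy'
    obtain ⟨r, -, rfl⟩ := hy'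
    rw [Finset.mul_sum]
    refine Submodule.sum_mem _ fun g hg => ?_
    obtain ⟨P, hP⟩ := (Algebra.adjoin_singleton_eq_range_aeval O u).le (r g).2
    show u⁻¹ ^ N * ((r g : F) * g) ∈ W ⊔ T
    rw [← hP]
    show u⁻¹ ^ N * (aeval u P * g) ∈ W ⊔ T
    rw [aeval_eq_sum_range, Finset.sum_mul, Finset.mul_sum]
    refine Submodule.sum_mem _ fun i _ => ?_
    rw [smul_mul_assoc, mul_smul_comm]
    refine Submodule.smul_mem _ _ ?_
    rw [← mul_assoc]
    by_cases hi : N ≤ i
    · obtain ⟨e, rfl⟩ := Nat.exists_eq_add_of_le hi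
      rw [pow_add, ← mul_assoc, ← mul_pow, inv_mul_cancel₀ hu, one_pow, one_mul]
      refine Submodule.mem_sup_left (Submodule.mem_sup_left ?_)
      exact (piece O E {u} hm hβ j).smul_mem
        ⟨u ^ e, pow_mem (Algebra.self_mem_adjoin_singleton O u) e⟩ (hGm g hg)
    · have e : u⁻¹ ^ N * u ^ i = u⁻¹ ^ (N - i) := by
        conv_lhs => rw [show N = (N - i) + i by omega, pow_add, mul_assoc, ← mul_pow,
          inv_mul_cancel₀ hu, one_pow, mul_one]
      rw [e]
      exact hgen g hg _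
  -- saturation
  let Φ : ℕ →o Submodule O T :=
    { toFun := fun k => (W.comap T.subtype).comap (LinearMap.lsmul O T (π ^ k))
      monotone' := fun a b hab t ht => by
        obtain ⟨d, rfl⟩ := Nat.exists_eq_add_of_le hab
        simp only [Submodule.mem_comap, LinearMap.lsmul_apply] at ht ⊢
        rw [pow_add, mul_comm, mul_smul]
        rw [map_smul]
        exact Submodule.smul_mem _ _ ht }
  have : IsNoetherian O T := isNoetherian_of_fg_of_noetherian T hT
  obtain ⟨c₀, hc₀⟩ := monotone_stabilizes_iff_noetherian.mpr inferInstance Φ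
  refine ⟨c₀, fun k z hz hk => ?_⟩
  have hsm : ∀ (n : ℕ) (y : F), algebraMap O F π ^ n * y = (π ^ n) • y := fun n y => by
    rw [Algebra.smul_def, map_pow]
  rw [hsm]
  have hk' : (π ^ k) • z ∈ W := by rw [← hsm]; exact hW.mpr hk
  obtain ⟨w, hw, t, ht, rfl⟩ := Submodule.mem_sup.mp (hcover z hz)
  have htk : (⟨t, ht⟩ : T) ∈ Φ k := by
    show (π ^ k) • t ∈ W
    have := W.sub_mem hk' (W.smul_mem (π ^ k) hw)
    rwa [← smul_sub, add_sub_cancel_left] at this
  have h1 : (⟨t, ht⟩ : T) ∈ Φ (max k c₀) := Φ.monotone (le_max_left _ _) htk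
  rw [← hc₀ _ (le_max_right _ _)] at h1
  have h2 : (π ^ c₀) • (w + t) ∈ W := by
    rw [smul_add]; exact W.add_mem (W.smul_mem _ hw) h1
  exact hW.mp h2

end FLTAgent.CarayolSquare
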