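import Fermat.Agent.CarayolSquare.Orth
import Mathlib.RingTheory.Ideal.Operations
import Mathlib.RingTheory.Valuation.LocalSubring

/-!
# Components of the special fibre of a chart

`CompData` records residue maps at the components of a special fibre.  `exists_normalised` passes
from local gluing (`GlueHyp`) to a global element with prescribed residues, and `radHyp_pair`
passes the hypothesis on radicals to `O[u, u⁻¹]`.  Used for the triviality of cyclic covers in
`CarayolSquare.Cover`.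
-/

set_option autoImplicit false

noncomputable section

namespace FLTAgent.CarayolSquare

open Polynomial

variable {O F Lk : Type*} [CommRing O] [Field F] [Field Lk] [Algebra O F]

/-- Valuation rings of the components with their residue maps, and roots `g` of the residues of
`f`. -/
structure CompData (O F Lk : Type*) [CommRing O] [Field F] [Field Lk] [Algebra O F]
    (π : O) (u f : F) (m : ℕ) where
  ι : Type
  nonempty : Nonempty ι
  V : ι → ValuationSubring F
  res : ∀ p, V p →+* Lk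
  algebraMap_mem : ∀ p c, algebraMap O F c ∈ V p
  res_π : ∀ p, res p ⟨algebraMap O F π, algebraMap_mem p π⟩ = 0
  u_mem : ∀ p, u ∈ V p
  u_inv_mem : ∀ p, u⁻¹ ∈ V p
  f_mem : ∀ p, f ∈ V p
  f_inv_mem : ∀ p, f⁻¹ ∈ V p
  g : ι → Lk
  g_pow : ∀ p, g p ^ m = res p ⟨f, f_mem p⟩

namespace CompData

variable {π : O} {u f : F} {m : ℕ} (D : CompData O F Lk π u f m)

open Classical in
/-- The residue, extended by zero. -/
def resT (p : D.ι) (x : F) : Lk := if h : x ∈ D.V p then D.res p ⟨x, h⟩ else 0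

theorem resT_eq {p : D.ι} {x : F} (h : x ∈ D.V p) : D.resT p x = D.res p ⟨x, h⟩ := dif_pos h

theorem resT_add {p : D.ι} {x y : F} (hx : x ∈ D.V p) (hy : y ∈ D.V p) :
    D.resT p (x + y) = D.resT p x + D.resT p y := by
  rw [D.resT_eq hx, D.resT_eq hy, D.resT_eq ((D.V p).add_mem _ _ hx hy), ← map_add]
  rfl

theorem resT_mul {p : D.ι} {x y : F} (hx : x ∈ D.V p) (hy : y ∈ D.V p) :
    D.resT p (x * y) = D.resT p x * D.resT p y := by
  rw [D.resT_eq hx, D.resT_eq hy, D.resT_eq ((D.V p).mul_mem _ _ hx hy), ← map_mul]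
  rfl

theorem resT_zero (p : D.ι) : D.resT p 0 = 0 := by
  rw [D.resT_eq (zero_mem _)]
  exact map_zero _

theorem resT_one (p : D.ι) : D.resT p 1 = 1 := by
  rw [D.resT_eq (one_mem _)]
  exact map_one _

theorem resT_pow {p : D.ι} {x : F} (hx : x ∈ D.V p) (n : ℕ) :
    D.resT p (x ^ n) = D.resT p x ^ n := by
  induction n with
  | zero => rw [pow_zero, pow_zero, D.resT_one]
  | succ n ih => rw [pow_succ, pow_succ, D.resT_mul (pow_mem hx n) hx, ih]

/-- Constants followed by the residue. -/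
def resO (p : D.ι) : O →+* Lk :=
  (D.res p).comp ((algebraMap O F).codRestrict (D.V p).toSubring (D.algebraMap_mem p))

theorem resO_apply (p : D.ι) (c : O) : D.resO p c = D.resT p (algebraMap O F c) := by
  rw [D.resT_eq (D.algebraMap_mem p c)]
  rfl

theorem resT_π (p : D.ι) : D.resT p (algebraMap O F π) = 0 := by
  rw [D.resT_eq (D.algebraMap_mem p π)]
  exact D.res_π p

theorem resT_f_ne_zero (p : D.ι) (hf : f ≠ 0) : D.resT p f ≠ 0 := fun h => by
  have h1 := D.resT_one p
  rw [← mul_inv_cancel₀ hf, D.resT_mul (D.f_mem p) (D.f_inv_mem p), h, zero_mul] at h1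
  exact zero_ne_one h1

theorem g_ne_zero (p : D.ι) (hf : f ≠ 0) (hm : 0 < m) : D.g p ≠ 0 := fun h => by
  have h1 := D.g_pow p
  rw [h, zero_pow hm.ne', ← D.resT_eq] at h1
  exact D.resT_f_ne_zero p hf h1.symm

theorem mem_of_pow_mul {p : D.ι} {c : F} (hm : 0 < m) (hf : f ≠ 0) (j : ℕ)
    (h : c ^ m * f ^ j ∈ D.V p) : c ∈ D.V p := by
  have h1 : c ^ m ∈ D.V p := by
    have := (D.V p).mul_mem _ _ h (pow_mem (D.f_inv_mem p) j)
    rwa [mul_assoc, ← mul_pow, mul_inv_cancel₀ hf, one_pow, mul_one] at this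
  rw [← ValuationSubring.valuation_le_one_iff] at h1 ⊢
  rw [map_pow] at h1
  exact (pow_le_one_iff hm.ne').mp h1

variable {E : Type*} [Field E] [Algebra O E] [Algebra F E] [IsScalarTower O F E]

/-- Chart elements are integral at all components. -/
theorem chart_mem {s : Set F} (hs : ∀ p, s ⊆ D.V p) {x : F} (hx : x ∈ chartF O E s) (p : D.ι) :
    x ∈ D.V p := by
  rw [mem_chartF_iff] at hx
  have hle : ∀ y ∈ Algebra.adjoin O s, y ∈ D.V p := by
    intro y hy
    induction hy using Algebra.adjoin_induction with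
    | mem z hz => exact hs p hz
    | algebraMap r => exact D.algebraMap_mem p r
    | add a b _ _ ha hb => exact (D.V p).add_mem _ _ ha hb
    | mul a b _ _ ha hb => exact (D.V p).mul_mem _ _ ha hb
  obtain ⟨P, hP, hPx⟩ := hx
  let φ : Algebra.adjoin O s →+* D.V p :=
    (Algebra.adjoin O s).val.toRingHom.codRestrict (D.V p).toSubring fun a => hle a a.2
  obtain ⟨y, hy⟩ := IsIntegrallyClosed.isIntegral_iff.mp
    (⟨P.map φ, hP.map _, by rw [eval₂_map]; exact hPx⟩ : IsIntegral (D.V p) x)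
  rw [← hy]
  exact y.2

/-- An element with zero residues on all components is nilpotent modulo `π`. -/
def RadHyp (E : Type*) [Field E] [Algebra O E] [Algebra F E] (s : Set F) : Prop :=
  ∀ c ∈ chartF O E s, (∀ p, D.resT p c = 0) →
    ∃ N : ℕ, ∃ w ∈ chartF O E s, c ^ N = algebraMap O F π * w

/-- The roots `g` glue locally on the special fibre. -/
def GlueHyp (E : Type*) [Field E] [Algebra O E] [Algebra F E] [IsScalarTower O F E]
    (s : Set F) : Prop :=
  ∀ n : Ideal (chartF O E s), n.IsMaximal →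
    (⟨algebraMap O F π, algebraMap_mem_chartF s π⟩ : chartF O E s) ∈ n →
      ∀ j < m, ∃ s₀ : chartF O E s, s₀ ∉ n ∧ ∃ y : F, y ^ m * f ^ j ∈ chartF O E s ∧
        ∀ p, D.resT p y * D.g p ^ j = D.resT p s₀

theorem exists_normalised {s : Set F} (hs : ∀ p, s ⊆ D.V p) (hm : 0 < m) (hf : f ≠ 0) {β : E}
    (hβ : β ^ m = algebraMap F E f) (glue : D.GlueHyp E s) {j : ℕ} (hj : j < m) :
    ∃ y : F, y ^ m * f ^ j ∈ chartF O E s ∧ ∀ p, D.resT p y * D.g p ^ j = 1 := by
  have hV : ∀ {y : F}, y ^ m * f ^ j ∈ chartF O E s → ∀ p, y ∈ D.V p :=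
    fun hy p => D.mem_of_pow_mul hm hf j (D.chart_mem hs hy p)
  let I : Ideal (chartF O E s) :=
    { carrier := {s₀ | ∃ y : F, y ^ m * f ^ j ∈ chartF O E s ∧
        ∀ p, D.resT p y * D.g p ^ j = D.resT p s₀}
      zero_mem' := ⟨0, by rw [zero_pow hm.ne', zero_mul]; exact zero_mem _, fun p => by
        rw [D.resT_zero, zero_mul]; exact (D.resT_zero p).symm⟩
      add_mem' := by
        rintro a b ⟨y, hy, hy'⟩ ⟨z, hz, hz'⟩
        refine ⟨y + z, (piece O E s hm hβ j).add_mem hy hz, fun p => ?_⟩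
        rw [D.resT_add (hV hy p) (hV hz p), add_mul, hy', hz', Subring.coe_add,
          D.resT_add (D.chart_mem hs a.2 p) (D.chart_mem hs b.2 p)]
      smul_mem' := by
        rintro r a ⟨y, hy, hy'⟩
        refine ⟨r * y, ?_, fun p => ?_⟩
        · rw [mul_pow, mul_assoc]
          exact mul_mem (pow_mem r.2 m) hy
        · rw [D.resT_mul (D.chart_mem hs r.2 p) (hV hy p), mul_assoc, hy', smul_eq_mul,
            Subring.coe_mul, D.resT_mul (D.chart_mem hs r.2 p) (D.chart_mem hs a.2 p)] }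
  have hπ : (⟨algebraMap O F π, algebraMap_mem_chartF s π⟩ : chartF O E s) ∈ I :=
    ⟨0, by rw [zero_pow hm.ne', zero_mul]; exact zero_mem _, fun p => by
      rw [D.resT_zero, zero_mul]; exact (D.resT_π p).symm⟩
  have htop : I = ⊤ := by
    by_contra hne
    obtain ⟨n, hn, hle⟩ := Ideal.exists_le_maximal I hne
    obtain ⟨s₀, hs₀, h⟩ := glue n hn (hle hπ) j hj
    exact hs₀ (hle h)
  obtain ⟨y, hy, hy'⟩ : (1 : chartF O E s) ∈ I := htop ▸ Submodule.mem_top
  exact ⟨y, hy, fun p => by rw [hy' p]; exact D.resT_one p⟩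

theorem radHyp_pair [Nonempty D.ι] (hu : u ≠ 0) (h : D.RadHyp E {u}) : D.RadHyp E {u, u⁻¹} := by
  intro c hc hres
  obtain ⟨N, hN⟩ := exists_pow_mul_mem_chartF hu hc
  have hV : ∀ p, c ∈ D.V p := D.chart_mem (fun p => by
    rintro z (rfl | rfl)
    · exact D.u_mem p
    · exact D.u_inv_mem p) hc
  obtain ⟨k, w, hw, hk⟩ := h _ hN fun p => by
    rw [D.resT_mul (pow_mem (D.u_mem p) N) (hV p), hres p, mul_zero]
  refine ⟨k, w * u⁻¹ ^ (N * k), mul_mem (intSet_mono (Set.image_mono
    (Set.singleton_subset_iff.mpr (Set.mem_insert u _))) hw)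
      (pow_mem (mem_chartF_self E (Set.mem_insert_of_mem u (Set.mem_singleton u⁻¹))) _), ?_⟩
  rw [← mul_assoc, ← hk, mul_pow, ← pow_mul, mul_comm (u ^ _), mul_assoc, ← mul_pow,
    mul_inv_cancel₀ hu, one_pow, mul_one]

end CompData

end FLTAgent.CarayolSquare
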