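import Fermat.Agent.CarayolSquare.Geometry.Final
import Fermat.Agent.CarayolSquare.Plumbing.CoreOfRoot

/-!
# `CoreInput` from gluing at the three kinds of points

`coreInput_of_glue`: if roots glue at ordinary points, at supersingular points and at cusps of
every model, then the local input `CoreInput` of S36 holds.
-/

set_option autoImplicit false

namespace FLTAgent.CarayolSquare

/-- The core input of Carayol's theorem from gluing at ordinary, supersingular and cusp points. -/
theorem coreInput_of_glue
    (h : ∀ {q : ℕ} [NeZero q] [Fact q.Prime] (X : Ctx q) (M₁ : ℕ) [NeZero M₁] (G : Model X M₁),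
      G.GlueOrdinary ∧ G.GlueSupersingular ∧ G.GlueCusps) :
    CoreInput :=
  Plumbing.coreInput_of_root fun {q} X M₁ _ G => by
    have : Fact q.Prime := ⟨X.prime⟩
    have : NeZero q := ⟨X.prime.ne_zero⟩
    exact G.rootDescends_of_glue (h X M₁ G).1 (h X M₁ G).2.1 (h X M₁ G).2.2

end FLTAgent.CarayolSquare
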