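import Mathlib.FieldTheory.AlgebraicClosure
import Mathlib.RingTheory.Valuation.LocalSubring
import Mathlib.RingTheory.Valuation.ValuationSubring
import Mathlib.RingTheory.LocalRing.ResidueField.Basic
import Mathlib.FieldTheory.Minpoly.IsIntegrallyClosed
import Mathlib.Tactic.LinearCombination

/-!
# Residues fixed by conjugation

`FixedData`: elements of a field which are integral over the ring of integers `O` of the field
fixed by a group of automorphisms that fixes residues.  All conjugates have the same residue
(`res_conj`), giving the residue map `res`.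
-/

set_option autoImplicit false

noncomputable section

namespace FLTAgent.CarayolSquare

open Polynomial

section Valuation

variable {O E : Type*} [CommRing O] [Field E] [Algebra O E]

theorem mem_of_isIntegral_of_subring {R : Subring E} {x : E} (hx : IsIntegral R x)
    (V : ValuationSubring E) (hV : (R : Set E) ⊆ V) : x ∈ V := by
  have h : x ∈ ⨅ W : {W : ValuationSubring E // (R : Set E) ⊆ W.toSubring}, W.1.toSubring := by
    rw [iInf_valuationSubring_superset, Subring.closure_eq]
    exact hx
  exact Subring.mem_iInf.mp h ⟨V, hV⟩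

theorem isIntegral_of_forall_valuationSubring {R : Subring E} {x : E}
    (h : ∀ V : ValuationSubring E, (R : Set E) ⊆ V → x ∈ V) : IsIntegral R x := by
  have hx : x ∈ ⨅ W : {W : ValuationSubring E // (R : Set E) ⊆ W.toSubring}, W.1.toSubring :=
    Subring.mem_iInf.mpr fun W => h W.1 W.2
  rw [iInf_valuationSubring_superset, Subring.closure_eq] at hx
  exact hx

theorem isIntegral_subalgebra_iff_toSubring (S : Subalgebra O E) (x : E) :
    IsIntegral S x ↔ IsIntegral S.toSubring x := Iff.rfl

/-- An element integral over `O[u]` and over `O[u⁻¹]` is integral over `O`. -/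
theorem isIntegral_of_both {u x : E} (h : IsIntegral (Algebra.adjoin O ({u} : Set E)) x)
    (h' : IsIntegral (Algebra.adjoin O ({u⁻¹} : Set E)) x) : IsIntegral O x := by
  have hR : IsIntegral (algebraMap O E).range x := by
    refine isIntegral_of_forall_valuationSubring fun V hV => ?_
    have hle : ∀ v : E, v ∈ V → (Algebra.adjoin O ({v} : Set E) : Set E) ⊆ V := by
      intro v hv y hy
      induction hy using Algebra.adjoin_induction with
      | mem z hz => rw [Set.mem_singleton_iff] at hz; exact hz ▸ hv
      | algebraMap r => exact hV ⟨r, rfl⟩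
      | add a b _ _ ha hb => exact V.add_mem _ _ ha hb
      | mul a b _ _ ha hb => exact V.mul_mem _ _ ha hb
    rcases V.mem_or_inv_mem u with hu | hu
    · exact mem_of_isIntegral_of_subring (R := (Algebra.adjoin O ({u} : Set E)).toSubring) h V
        (hle u hu)
    · exact mem_of_isIntegral_of_subring (R := (Algebra.adjoin O ({u⁻¹} : Set E)).toSubring) h' V
        (hle _ hu)
  obtain ⟨P, hP, hPx⟩ := hR
  obtain ⟨Q, hQ, -, hQm⟩ := lifts_and_degree_eq_and_monic
    (map_surjective (algebraMap O E).rangeRestrict (algebraMap O E).rangeRestrict_surjective P) hP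
  exact ⟨Q, hQm, by rw [← hQ, eval₂_map] at hPx; exact hPx⟩

end Valuation

/-- A group of automorphisms of `L/K` with fixed field `K`, fixing all residues of the valuation
ring `A`, whose trace on `K` is the valuation ring `O` with uniformiser `π`. -/
structure FixedData (O K L : Type*) [CommRing O] [Field K] [Field L] [Algebra O K] [Algebra K L]
    where
  A : ValuationSubring L
  G : Subgroup (L ≃ₐ[K] L)
  fixed : ∀ x : L, (∀ σ ∈ G, σ x = x) → x ∈ Set.range (algebraMap K L)
  res_fixed : ∀ σ ∈ G, ∀ a ∈ A, A.valuation (σ a - a) < 1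
  mem_iff : ∀ c : K, algebraMap K L c ∈ A ↔ c ∈ Set.range (algebraMap O K)
  π : O
  lt_one_iff : ∀ c : O, A.valuation (algebraMap K L (algebraMap O K c)) < 1 ↔ π ∣ c

namespace FixedData

variable {O K L : Type*} [CommRing O] [Field K] [Field L] [IsAlgClosed L] [Algebra O K]
  [Algebra K L] (D : FixedData O K L)
variable {E : Type*} [Field E] [Algebra O E] [Algebra K E] [IsScalarTower O K E]

/-- The residue field. -/
abbrev Res := IsLocalRing.ResidueField D.A

omit [IsAlgClosed L] in
theorem mem_of_isRoot {P : O[X]} (hP : P.Monic) {a : L}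
    (ha : eval₂ ((algebraMap K L).comp (algebraMap O K)) a P = 0) : a ∈ D.A := by
  refine mem_of_isIntegral_of_subring (R := ((algebraMap K L).comp (algebraMap O K)).range)
    (x := a) ⟨P.map ((algebraMap K L).comp (algebraMap O K)).rangeRestrict, hP.map _, ?_⟩ D.A ?_
  · rw [eval₂_map]; exact ha
  · rintro _ ⟨c, rfl⟩
    exact (D.mem_iff _).mpr ⟨c, rfl⟩

omit [IsAlgClosed L] in
theorem sigma_mem {σ : L ≃ₐ[K] L} (hσ : σ ∈ D.G) {a : L} (ha : a ∈ D.A) : σ a ∈ D.A := by
  have h : σ a - a ∈ D.A := (D.A.valuation_le_one_iff _).mp (D.res_fixed σ hσ a ha).le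
  simpa using D.A.add_mem _ _ h ha

omit [IsAlgClosed L] in
theorem residue_sigma {σ : L ≃ₐ[K] L} (hσ : σ ∈ D.G) (a : D.A) :
    IsLocalRing.residue D.A ⟨σ a, D.sigma_mem hσ a.2⟩ = IsLocalRing.residue D.A a := by
  rw [← sub_eq_zero, ← map_sub, IsLocalRing.residue_eq_zero_iff, D.A.valuation_lt_one_iff]
  exact D.res_fixed σ hσ a a.2

/-- All roots of an irreducible monic polynomial over `K` with integral roots have the same
residue. -/
theorem residue_root_eq {P : K[X]} (hP : Irreducible P) (hPm : P.Monic)
    (hA : ∀ a ∈ (P.map (algebraMap K L)).roots, a ∈ D.A) {a b : L}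
    (ha : a ∈ (P.map (algebraMap K L)).roots) (hb : b ∈ (P.map (algebraMap K L)).roots) :
    IsLocalRing.residue D.A ⟨a, hA a ha⟩ = IsLocalRing.residue D.A ⟨b, hA b hb⟩ := by
  classical
  set PL := P.map (algebraMap K L) with hPL
  let c : L → Prop := fun z => ∃ h : z ∈ D.A, IsLocalRing.residue D.A ⟨z, h⟩ =
    IsLocalRing.residue D.A ⟨a, hA a ha⟩
  let Q : L[X] := ((PL.roots.filter c).map fun z => X - C z).prod
  have hQm : Q.Monic := monic_multiset_prod_of_monic _ _ fun z _ => monic_X_sub_C z
  have hfix : ∀ σ ∈ D.G, Q.map (σ : L →+* L) = Q := by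
    intro σ hσ
    have hroots : PL.roots.map σ = PL.roots := by
      have h := (IsAlgClosed.splits PL).roots_map (σ : L →+* L)
      have he : PL.map (σ : L →+* L) = PL := by
        rw [hPL, Polynomial.map_map]
        congr 1
        exact RingHom.ext σ.commutes
      rw [he] at h
      exact h.symm
    have hcσ : ∀ z, z ∈ PL.roots → (c z ↔ c (σ z)) := by
      intro z hz
      have e := D.residue_sigma hσ ⟨z, hA z hz⟩
      constructor
      · intro h
        exact ⟨D.sigma_mem hσ (hA z hz), e.trans h.2⟩
      · intro h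
        exact ⟨hA z hz, e.symm.trans h.2⟩
    have hsplit : (PL.roots.filter c).map σ = PL.roots.filter c := by
      conv_rhs => rw [← hroots, Multiset.filter_map]
      exact congrArg (Multiset.map σ) (Multiset.filter_congr hcσ)
    show Polynomial.map _ ((PL.roots.filter c).map _).prod = _
    rw [Polynomial.map_multiset_prod, Multiset.map_map]
    show _ = ((PL.roots.filter c).map _).prod
    conv_rhs => rw [← hsplit, Multiset.map_map]
    congr 1
    refine Multiset.map_congr rfl fun z _ => ?_
    simp
  obtain ⟨Q₀, hQ₀⟩ : Q ∈ lifts (algebraMap K L) := (lifts_iff_coeff_lifts Q).mpr fun n =>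
    D.fixed _ fun σ hσ => by
      have := congrArg (fun R => coeff R n) (hfix σ hσ)
      simpa using this
  have hQ₀' : Q₀.map (algebraMap K L) = Q := hQ₀
  have hdvd : Q₀ ∣ P := by
    rw [← map_dvd_map' (algebraMap K L), hQ₀', ← hPL]
    conv_rhs => rw [(IsAlgClosed.splits PL).eq_prod_roots_of_monic (hPm.map _)]
    exact Multiset.prod_dvd_prod_of_le (Multiset.map_le_map (Multiset.filter_le _ _))
  have haQ : Q.IsRoot a := by
    rw [IsRoot, eval_multiset_prod, Multiset.prod_eq_zero_iff, Multiset.map_map,
      Multiset.mem_map]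
    exact ⟨a, Multiset.mem_filter.mpr ⟨ha, hA a ha, rfl⟩, by simp⟩
  have hQ₀m : Q₀.Monic := monic_of_injective (algebraMap K L).injective (hQ₀' ▸ hQm)
  have heq : Q₀ = P := by
    rcases hP.dvd_iff.mp hdvd with h | h
    · exfalso
      rw [hQ₀m.isUnit_iff] at h
      rw [← hQ₀', h, Polynomial.map_one, IsRoot, eval_one] at haQ
      exact one_ne_zero haQ
    · exact eq_of_monic_of_associated hQ₀m hPm h.symm
  have hbQ : b ∈ Q.roots := by rw [← hQ₀', heq]; exact hb
  rw [roots_multiset_prod_X_sub_C, Multiset.mem_filter] at hbQ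
  obtain ⟨_, h⟩ := hbQ.2
  exact h.symm

/-- The embedding of the algebraic elements into `L`. -/
def theta (E : Type*) [Field E] [Algebra K E] : algebraicClosure K E →ₐ[K] L :=
  IsAlgClosed.lift

theorem isAlgebraic_of_isIntegral {x : E} (hx : IsIntegral O x) : x ∈ algebraicClosure K E :=
  mem_algebraicClosure_iff.mpr (IsIntegral.tower_top hx).isAlgebraic

omit [IsAlgClosed L] in
theorem isRoot_of_aeval {P : O[X]} {a : L} {x : E} {hx : x ∈ algebraicClosure K E}
    (θ : algebraicClosure K E →ₐ[K] L) (ha : θ ⟨x, hx⟩ = a) (h : aeval x P = 0) :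
    eval₂ ((algebraMap K L).comp (algebraMap O K)) a P = 0 := by
  have h1 : aeval (⟨x, hx⟩ : algebraicClosure K E) (P.map (algebraMap O K)) = 0 := by
    apply Subtype.val_injective
    rw [← IntermediateField.aeval_coe, aeval_map_algebraMap, h]
    rfl
  have h2 := congrArg θ h1
  rw [← aeval_algHom_apply, map_zero, ha, aeval_def, eval₂_map] at h2
  exact h2

theorem theta_mem {x : E} (hx : IsIntegral O x) :
    theta (L := L) E ⟨x, isAlgebraic_of_isIntegral (K := K) hx⟩ ∈ D.A := by
  obtain ⟨P, hP, hPx⟩ := hx
  exact D.mem_of_isRoot hP (isRoot_of_aeval _ rfl hPx)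

/-- The residue of an integral element. -/
def res (D : FixedData O K L) (E : Type*) [Field E] [Algebra O E] [Algebra K E]
    [IsScalarTower O K E] : integralClosure O E →+* D.Res :=
  (IsLocalRing.residue D.A).comp
    { toFun := fun x =>
        ⟨theta (L := L) E ⟨x, isAlgebraic_of_isIntegral (K := K) x.2⟩, D.theta_mem x.2⟩
      map_one' := Subtype.ext (map_one _)
      map_mul' := fun _ _ => Subtype.ext (map_mul (theta (L := L) E) ⟨_, _⟩ ⟨_, _⟩)
      map_zero' := Subtype.ext (map_zero _)
      map_add' := fun _ _ => Subtype.ext (map_add (theta (L := L) E) ⟨_, _⟩ ⟨_, _⟩) }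

theorem theta_mem_roots {x : E} (hx : IsIntegral O x) :
    theta (L := L) E ⟨x, isAlgebraic_of_isIntegral (K := K) hx⟩ ∈
      ((minpoly K x).map (algebraMap K L)).roots := by
  have hne : (minpoly K x).map (algebraMap K L) ≠ 0 :=
    map_ne_zero (minpoly.ne_zero (IsIntegral.tower_top hx))
  rw [mem_roots hne, IsRoot, eval_map, ← aeval_def, aeval_algHom_apply]
  convert map_zero (theta (L := L) E)
  apply Subtype.val_injective
  rw [← IntermediateField.aeval_coe, minpoly.aeval]
  rfl

omit [IsAlgClosed L] in
theorem roots_mem {x : E} (hx : IsIntegral O x) :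
    ∀ a ∈ ((minpoly K x).map (algebraMap K L)).roots, a ∈ D.A := by
  obtain ⟨P, hP, hPx⟩ := hx
  intro a ha
  refine D.mem_of_isRoot hP ?_
  have hdvd : minpoly K x ∣ P.map (algebraMap O K) :=
    minpoly.dvd K x (by rw [aeval_map_algebraMap]; exact hPx)
  rw [mem_roots', IsRoot, eval_map] at ha
  obtain ⟨Q, hQ⟩ := hdvd
  rw [← eval₂_map, hQ, eval₂_mul, ha.2, zero_mul]

/-- Conjugate elements have the same residue. -/
theorem res_conj (τ : E ≃ₐ[K] E) {x y : integralClosure O E} (h : τ x = y) :
    D.res E x = D.res E y := by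
  have hxy : minpoly K (y : E) = minpoly K (x : E) := by rw [← h]; exact minpoly.algEquiv_eq τ x
  have hy := theta_mem_roots (L := L) (K := K) y.2
  rw [hxy] at hy
  exact D.residue_root_eq (minpoly.irreducible (IsIntegral.tower_top x.2))
    (minpoly.monic (IsIntegral.tower_top x.2)) (D.roots_mem x.2) (theta_mem_roots x.2) hy

/-- An element with zero residue is nilpotent modulo `π`. -/
theorem exists_pow_eq_of_res_eq_zero [IsDomain O] [IsIntegrallyClosed O] [IsFractionRing O K]
    [Module.IsTorsionFree O E] {x : integralClosure O E} (hx : D.res E x = 0) :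
    ∃ (d : ℕ) (w : integralClosure O E), 0 < d ∧ x ^ d = algebraMap O _ D.π * w := by
  classical
  have hxK : IsIntegral K (x : E) := IsIntegral.tower_top x.2
  have hP : minpoly K (x : E) = (minpoly O (x : E)).map (algebraMap O K) :=
    minpoly.isIntegrallyClosed_eq_field_fractions' K x.2
  set P := minpoly O (x : E) with hPdef
  have hPm : P.Monic := minpoly.monic x.2
  set PL := (minpoly K (x : E)).map (algebraMap K L) with hPL
  have hA := D.roots_mem x.2
  let R : D.A[X] := (PL.roots.attach.map fun z => X - C (⟨z.1, hA z.1 z.2⟩ : D.A)).prod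
  have hR : R.map (algebraMap D.A L) = PL := by
    show Polynomial.map _ (Multiset.map _ PL.roots.attach).prod = PL
    rw [Polynomial.map_multiset_prod, Multiset.map_map]
    conv_rhs => rw [(IsAlgClosed.splits PL).eq_prod_roots_of_monic
      ((minpoly.monic hxK).map _), ← Multiset.attach_map_val PL.roots, Multiset.map_map]
    congr 1
    refine Multiset.map_congr rfl fun z _ => ?_
    simp [Function.comp]
  have hres : R.map (IsLocalRing.residue D.A) = X ^ PL.roots.card := by
    show Polynomial.map _ (Multiset.map _ PL.roots.attach).prod = _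
    rw [Polynomial.map_multiset_prod, Multiset.map_map]
    rw [Multiset.map_congr rfl (g := fun _ => X)]
    · simp
    · intro z _
      have e := D.residue_root_eq (minpoly.irreducible hxK) (minpoly.monic hxK) hA z.2
        (theta_mem_roots x.2)
      have : IsLocalRing.residue D.A ⟨z.1, hA z.1 z.2⟩ = 0 := e.trans hx
      simp [this]
  have hdeg : P.natDegree = PL.roots.card := by
    rw [← (IsAlgClosed.splits PL).natDegree_eq_card_roots, hPL,
      natDegree_map_eq_of_injective (algebraMap K L).injective, hP, hPm.natDegree_map]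
  have hdvd : ∀ i < P.natDegree, D.π ∣ P.coeff i := by
    intro i hi
    rw [← D.lt_one_iff]
    have h1 : algebraMap K L (algebraMap O K (P.coeff i)) = ((R.coeff i : D.A) : L) := by
      have := congrArg (fun T => coeff T i) hR
      simp only [hPL, hP, coeff_map] at this
      exact this.symm
    rw [h1, ← D.A.valuation_lt_one_iff, ← IsLocalRing.residue_eq_zero_iff, ← coeff_map, hres,
      coeff_X_pow, if_neg (by omega)]
  choose g hg using fun i : Fin P.natDegree => hdvd i i.2
  refine ⟨P.natDegree, -∑ i : Fin P.natDegree, algebraMap O _ (g i) * x ^ (i : ℕ),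
    minpoly.natDegree_pos x.2, Subtype.ext ?_⟩
  have h0 : aeval (x : E) P = 0 := minpoly.aeval _ _
  rw [hPm.as_sum, map_add, map_pow, aeval_X, map_sum] at h0
  push_cast
  rw [mul_neg, Finset.mul_sum, eq_neg_iff_add_eq_zero]
  rw [← h0, ← Fin.sum_univ_eq_sum_range]
  refine congrArg _ (Finset.sum_congr rfl fun i _ => ?_)
  rw [map_mul, aeval_C, map_pow, aeval_X, hg i, map_mul]
  ring

end FixedData

end FLTAgent.CarayolSquare
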