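import Fermat.Agent.CarayolSquare.Vals
import Fermat.Agent.CarayolSquare.Residue
import Mathlib.FieldTheory.Galois.Infinite
import Mathlib.FieldTheory.IsAlgClosed.AlgebraicClosure
import Mathlib.RingTheory.Ideal.Quotient.Basic

/-!
# Triviality of cyclic covers unramified on a model

`exists_pow_eq_of_components`: if the cover `φ ^ m = f` is unramified on a two chart model and
trivial on the reduced special fibre, with gluing at all points, then `f` is an `m`-th power.
The proof lifts idempotents of the cover.  Used by the local theorem in `Geometry.Final`.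
-/

set_option autoImplicit false

noncomputable section

namespace FLTAgent.CarayolSquare

open Polynomial

/-- Iterating `idemStep` turns idempotents modulo the radical of `π` into idempotents modulo
`π ^ N`, in the same classes. -/
theorem exists_iterate {R : Type*} [CommRing R] (π : R) (N : ℕ) {α : Type*} (A : Finset α)
    (v : α → R) (h : ∀ a ∈ A, v a ^ 2 - v a ∈ (Ideal.span {π}).radical) :
    ∃ k : ℕ, ∀ a ∈ A, π ^ N ∣ (idemStep^[k] (v a)) ^ 2 - idemStep^[k] (v a) ∧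
      idemStep^[k] (v a) - v a ∈ (Ideal.span {π}).radical := by
  classical
  have h' : ∀ a, ∃ n : ℕ, a ∈ A → (v a ^ 2 - v a) ^ n ∈ Ideal.span {π} := fun a => by
    by_cases ha : a ∈ A
    · obtain ⟨n, hn⟩ := h a ha
      exact ⟨n, fun _ => hn⟩
    · exact ⟨0, fun h => absurd h ha⟩
  choose n hn using h'
  refine ⟨(∑ a ∈ A, n a) * N, fun a ha => ?_⟩
  obtain ⟨h1, h2⟩ := idemStep_iterate (v a) ((∑ a ∈ A, n a) * N)
  refine ⟨(?_ : π ^ N ∣ _).trans ((pow_dvd_pow _ (Nat.lt_two_pow_self).le).trans h1), ?_⟩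
  · have hdvd : π ∣ (v a ^ 2 - v a) ^ (∑ a ∈ A, n a) :=
      (Ideal.mem_span_singleton.mp (hn a ha)).trans
        (pow_dvd_pow _ (Finset.single_le_sum (fun b _ => Nat.zero_le _) ha))
    rw [pow_mul]
    exact pow_dvd_pow_of_dvd hdvd N
  · obtain ⟨c, hc⟩ := h2
    rw [hc]
    exact Ideal.mul_mem_right c _ (h a ha)

/-- Idempotents modulo `π ^ N` congruent modulo the radical are congruent modulo `π ^ N`. -/
theorem pow_dvd_sub_of_idem {R : Type*} [CommRing R] (π : R) {N : ℕ} {a b : R}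
    (ha : π ^ N ∣ a ^ 2 - a) (hb : π ^ N ∣ b ^ 2 - b) (h : a - b ∈ (Ideal.span {π}).radical) :
    π ^ N ∣ a - b := by
  rw [← Ideal.mem_span_singleton, ← Ideal.Quotient.eq_zero_iff_mem, map_sub, sub_eq_zero]
  refine idem_eq_of_isNilpotent ?_ ?_ ?_
  · rw [← map_pow, ← sub_eq_zero, ← map_sub, Ideal.Quotient.eq_zero_iff_mem]
    exact Ideal.mem_span_singleton.mpr ha
  · rw [← map_pow, ← sub_eq_zero, ← map_sub, Ideal.Quotient.eq_zero_iff_mem]
    exact Ideal.mem_span_singleton.mpr hb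
  · obtain ⟨n, hn⟩ := h
    refine ⟨n * N, ?_⟩
    rw [← map_sub, ← map_pow, Ideal.Quotient.eq_zero_iff_mem, Ideal.mem_span_singleton, pow_mul]
    exact pow_dvd_pow_of_dvd (Ideal.mem_span_singleton.mp hn) N

section Main

variable {O F Lk : Type*} [CommRing O] [IsDomain O] [Field F] [Field Lk] [Algebra O F]
  {E : Type*} [Field E] [Algebra O E] [Algebra F E] [IsScalarTower O F E]
  {π : O} {u f : F} {m : ℕ}

/-- The approximate idempotent attached to normalised elements `y`. -/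
def preIdem (μ ζ : O) (m : ℕ) (y : ℕ → F) (i : ℕ) : F[X] :=
  ofCoeffs m fun j => algebraMap O F (μ * (ζ ^ j) ^ (m - i)) * y j

omit [IsDomain O] in
/-- A polynomial with coefficients in `V` lifts to `V`. -/
theorem ofCoeffs_mem_lifts (V : ValuationSubring F) {c : ℕ → F} (hc : ∀ j < m, c j ∈ V) :
    ofCoeffs m c ∈ lifts V.subtype := by
  refine sum_mem fun j hj => ?_
  rw [C_mul_X_pow_eq_monomial]
  exact monomial_mem_lifts _ ⟨⟨c j, hc j (Finset.mem_range.mp hj)⟩, rfl⟩

namespace CompData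

variable (D : CompData O F Lk π u f m)

omit [IsDomain O] in
/-- `phi` respects differences of polynomials over the valuation ring. -/
theorem phi_sub_of_lifts (hm : 0 < m) {ζ : O} (hζ : IsPrimitiveRoot ζ m) {p : D.ι} (l : ℕ)
    {P Q : F[X]} (hP : P ∈ lifts (D.V p).subtype) (hQ : Q ∈ lifts (D.V p).subtype) :
    D.phi ζ p l (P - Q) = D.phi ζ p l P - D.phi ζ p l Q := by
  obtain ⟨P, rfl⟩ := (mem_lifts _).mp hP
  obtain ⟨Q, rfl⟩ := (mem_lifts _).mp hQ
  rw [← Polynomial.map_sub, D.phi_map hm hζ, D.phi_map hm hζ, D.phi_map hm hζ, eval₂_sub]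

omit [IsDomain O] in
/-- `phi` respects products of polynomials over the valuation ring. -/
theorem phi_mul_of_lifts (hm : 0 < m) {ζ : O} (hζ : IsPrimitiveRoot ζ m) {p : D.ι} (l : ℕ)
    {P Q : F[X]} (hP : P ∈ lifts (D.V p).subtype) (hQ : Q ∈ lifts (D.V p).subtype) :
    D.phi ζ p l (P * Q) = D.phi ζ p l P * D.phi ζ p l Q := by
  obtain ⟨P, rfl⟩ := (mem_lifts _).mp hP
  obtain ⟨Q, rfl⟩ := (mem_lifts _).mp hQ
  rw [← Polynomial.map_mul, D.phi_map hm hζ, D.phi_map hm hζ, D.phi_map hm hζ, eval₂_mul]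

omit [IsDomain O] in
/-- `phi` respects powers of polynomials over the valuation ring. -/
theorem phi_pow_of_lifts (hm : 0 < m) {ζ : O} (hζ : IsPrimitiveRoot ζ m) {p : D.ι} (l : ℕ)
    {P : F[X]} (hP : P ∈ lifts (D.V p).subtype) (n : ℕ) :
    D.phi ζ p l (P ^ n) = D.phi ζ p l P ^ n := by
  obtain ⟨P, rfl⟩ := (mem_lifts _).mp hP
  rw [← Polynomial.map_pow, D.phi_map hm hζ, D.phi_map hm hζ, eval₂_pow]

/-- The properties of the approximate idempotents on one chart. -/
theorem preIdem_spec {s : Set F} (hs : ∀ p, s ⊆ D.V p) (hrad : D.RadHyp E s)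
    (hglue : D.GlueHyp E s) (hm : 0 < m) (hmu : IsUnit (m : O)) (hf : f ≠ 0) {ζ : O}
    (hζ : IsPrimitiveRoot ζ m) {β₀ : E} (hβ₀ : β₀ ^ m = algebraMap F E f) :
    ∃ e : ℕ → F[X],
      (∀ i p, e i ∈ lifts (D.V p).subtype) ∧
      (∀ i l, aeval (rootAt ζ β₀ l) (e i) ∈ intSet O (algebraMap F E '' s)) ∧
      (∀ i < m, ∀ p, ∀ l < m, D.phi ζ p l (e i) = if l = i then 1 else 0) ∧
      (∀ i < m, ∀ l, InRad π (algebraMap F E '' s)
        (aeval (rootAt ζ β₀ l) (e i) ^ 2 - aeval (rootAt ζ β₀ l) (e i))) ∧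
      ∀ i < m, ∀ k < m, i ≠ k → ∀ l, InRad π (algebraMap F E '' s)
        (aeval (rootAt ζ β₀ l) (e i) * aeval (rootAt ζ β₀ l) (e k)) := by
  classical
  obtain ⟨μ, hμ⟩ := hmu.exists_right_inv
  choose! y hy hy1 using fun j (hj : j < m) => D.exists_normalised hs hm hf hβ₀ hglue hj
  have hc : ∀ i, ∀ j < m,
      (algebraMap O F (μ * (ζ ^ j) ^ (m - i)) * y j) ^ m * f ^ j ∈ chartF O E s := by
    intro i j hj
    rw [mul_pow, mul_assoc]
    exact mul_mem (pow_mem (algebraMap_mem_chartF s _) m) (hy j hj)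
  have hV : ∀ i, ∀ j < m, ∀ p, algebraMap O F (μ * (ζ ^ j) ^ (m - i)) * y j ∈ D.V p :=
    fun i j hj p => D.mem_of_pow_mul hm hf j (D.chart_mem hs (hc i j hj) p)
  have hval : ∀ i l, aeval (rootAt ζ β₀ l) (preIdem μ ζ m y i) ∈
      intSet O (algebraMap F E '' s) := by
    intro i l
    rw [aeval_eq_sum_cf hm (rootAt_pow hζ hβ₀ l)]
    refine sum_mem fun j hj => ?_
    rw [preIdem, cf_ofCoeffs _ (Finset.mem_range.mp hj)]
    exact monomial_mem hm (rootAt_pow hζ hβ₀ l) (hc i j (Finset.mem_range.mp hj))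
  have hlifts : ∀ i p, preIdem μ ζ m y i ∈ lifts (D.V p).subtype := fun i p =>
    ofCoeffs_mem_lifts _ fun j hj => hV i j hj p
  have hphi : ∀ i < m, ∀ p, ∀ l < m,
      D.phi ζ p l (preIdem μ ζ m y i) = if l = i then 1 else 0 := by
    intro i hi p l hl
    have hy' : ∀ j < m, y j ∈ D.V p := fun j hj =>
      D.mem_of_pow_mul hm hf j (D.chart_mem hs (hy j hj) p)
    calc D.phi ζ p l (preIdem μ ζ m y i)
        = D.resO p (μ * ∑ j ∈ Finset.range m, (ζ ^ j) ^ l * (ζ ^ j) ^ (m - i)) := by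
          rw [phi, map_mul, map_sum, Finset.mul_sum]
          refine Finset.sum_congr rfl fun j hj => ?_
          have hj' := Finset.mem_range.mp hj
          rw [preIdem, cf_ofCoeffs _ hj', D.resT_mul (D.algebraMap_mem p _) (hy' j hj'),
            ← D.resO_apply]
          simp only [map_mul, map_pow]
          linear_combination (D.resO p μ * (D.resO p ζ ^ j) ^ l * (D.resO p ζ ^ j) ^ (m - i)) *
            hy1 j hj' p
      _ = _ := by
          rw [orth_sum hζ hl hi]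
          split
          · rw [mul_comm, hμ, map_one]
          · rw [mul_zero, map_zero]
  refine ⟨preIdem μ ζ m y, hlifts, hval, hphi, fun i hi l => ?_, fun i hi k hk hik l => ?_⟩
  · have h := D.inRad_of_phi hs hrad hm hmu hf hζ hβ₀
      (P := preIdem μ ζ m y i * preIdem μ ζ m y i - preIdem μ ζ m y i)
      (fun l _ => by
          rw [map_sub, map_mul]; exact sub_mem (mul_mem (hval i l) (hval i l)) (hval i l))
      (fun p l hl => by
        rw [D.phi_sub_of_lifts hm hζ l (mul_mem (hlifts i p) (hlifts i p)) (hlifts i p),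
          D.phi_mul_of_lifts hm hζ l (hlifts i p) (hlifts i p), hphi i hi p l hl]
        split <;> simp) l
    rw [map_sub, map_mul, ← pow_two] at h
    exact h
  · have h := D.inRad_of_phi hs hrad hm hmu hf hζ hβ₀
      (P := preIdem μ ζ m y i * preIdem μ ζ m y k)
      (fun l _ => by rw [map_mul]; exact mul_mem (hval i l) (hval k l))
      (fun p l hl => by
        rw [D.phi_mul_of_lifts hm hζ l (hlifts i p) (hlifts k p), hphi i hi p l hl,
          hphi k hk p l hl]
        split_ifs with h1 h2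
        · exact absurd (h1.symm.trans h2) hik
        all_goals simp) l
    rw [map_mul] at h
    exact h

end CompData

omit [IsDomain O] in
/-- Nilpotence modulo `π` persists in a larger chart. -/
theorem inRad_mono {s t : Set E} (h : s ⊆ t) {x : E} (hx : InRad π s x) : InRad π t x := by
  obtain ⟨n, w, hw, hnw⟩ := hx.exists_pow
  exact inRad_of_pow (intSet_mono h hx.1) (intSet_mono h hw) hnw

omit [IsDomain O] [Algebra O F] [IsScalarTower O F E] in
/-- A polynomial with coefficients in the pieces has values in the chart. -/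
theorem aeval_ofCoeffs_mem {s : Set F} (hm : 0 < m) {β : E} (hβ : β ^ m = algebraMap F E f)
    {y : ℕ → F} (hy : ∀ j < m, y j ^ m * f ^ j ∈ chartF O E s) :
    aeval β (ofCoeffs m y) ∈ intSet O (algebraMap F E '' s) := by
  rw [aeval_eq_sum_cf hm hβ]
  refine sum_mem fun j hj => ?_
  rw [cf_ofCoeffs _ (Finset.mem_range.mp hj)]
  exact monomial_mem hm hβ (hy j (Finset.mem_range.mp hj))

omit [IsDomain O] [Algebra O F] [IsScalarTower O F E] in
/-- Values that are idempotent up to the radical lift to values idempotent modulo `π ^ N`. -/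
theorem exists_idem_lift (π : O) (N m : ℕ) (r : ℕ → E) {A : Set E} {e : ℕ → F[X]}
    (hv : ∀ i l, aeval (r l) (e i) ∈ intSet O A)
    (hi : ∀ i < m, ∀ l, InRad π A (aeval (r l) (e i) ^ 2 - aeval (r l) (e i))) :
    ∃ eN : ℕ → F[X], (∀ i l, aeval (r l) (eN i) ∈ intSet O A) ∧
      (∀ i < m, ∀ l < m, ∃ w ∈ intSet O A, aeval (r l) (eN i) ^ 2 - aeval (r l) (eN i) =
        algebraMap O E π ^ N * w) ∧
      ∀ i < m, ∀ l < m, InRad π A (aeval (r l) (eN i) - aeval (r l) (e i)) := by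
  let πA : intSet O A := ⟨algebraMap O E π, algebraMap_mem_intSet A π⟩
  obtain ⟨k, hk⟩ := exists_iterate πA N (Finset.range m ×ˢ Finset.range m)
    (fun a : ℕ × ℕ => (⟨aeval (r a.2) (e a.1), hv a.1 a.2⟩ : intSet O A))
    (fun a ha => (hi a.1 (Finset.mem_range.mp (Finset.mem_product.mp ha).1) a.2).2)
  have hcomm : ∀ i l, aeval (r l) (idemStep^[k] (e i)) =
      ((idemStep^[k] (⟨aeval (r l) (e i), hv i l⟩ : intSet O A) : intSet O A) : E) := by
    intro i l
    exact (idemStep_map (aeval (r l) : F[X] →ₐ[F] E).toRingHom (e i) k).trans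
      (idemStep_map (intSet O A).subtype (⟨_, hv i l⟩ : intSet O A) k).symm
  refine ⟨fun i => idemStep^[k] (e i), fun i l => ?_, fun i hi l hl => ?_, fun i hi l hl => ?_⟩
  · rw [hcomm]; exact Subtype.coe_prop _
  · obtain ⟨⟨w, hw⟩, -⟩ := hk (i, l) (Finset.mem_product.mpr
      ⟨Finset.mem_range.mpr hi, Finset.mem_range.mpr hl⟩)
    refine ⟨w, w.2, ?_⟩
    rw [hcomm]
    exact congrArg Subtype.val hw
  · obtain ⟨-, h⟩ := hk (i, l) (Finset.mem_product.mpr
      ⟨Finset.mem_range.mpr hi, Finset.mem_range.mpr hl⟩)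
    rw [hcomm]
    exact ⟨Subtype.coe_prop
      (idemStep^[k] (⟨aeval (r l) (e i), hv i l⟩ : intSet O A) - ⟨aeval (r l) (e i), hv i l⟩), h⟩

omit [IsDomain O] in
/-- Two values idempotent modulo `π ^ N` and congruent up to the radical agree modulo `π ^ N`. -/
theorem exists_sub_eq_pi_pow_mul {A : Set E} {N : ℕ} {a b w w' : E} (ha : a ∈ intSet O A)
    (hb : b ∈ intSet O A) (hw : w ∈ intSet O A) (hw' : w' ∈ intSet O A)
    (hwe : a ^ 2 - a = algebraMap O E π ^ N * w) (hwe' : b ^ 2 - b = algebraMap O E π ^ N * w')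
    (h : InRad π A (a - b)) : ∃ z ∈ intSet O A, a - b = algebraMap O E π ^ N * z := by
  let πA : intSet O A := ⟨algebraMap O E π, algebraMap_mem_intSet A π⟩
  obtain ⟨z, hz⟩ := pow_dvd_sub_of_idem πA (N := N) (a := (⟨a, ha⟩ : intSet O A)) (b := ⟨b, hb⟩)
    ⟨⟨w, hw⟩, Subtype.ext hwe⟩ ⟨⟨w', hw'⟩, Subtype.ext hwe'⟩ h.2
  exact ⟨z, z.2, congrArg Subtype.val hz⟩

omit [IsDomain O] in
/-- Changing a value idempotent modulo `π ^ (c + 1)` by a multiple of `π` keeps it idempotent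
modulo `π` and in its class up to the radical. -/
theorem idem_correction {A : Set E} {a e v w : E} {c : ℕ} (ha : a ∈ intSet O A)
    (hv : v ∈ intSet O A) (hw : w ∈ intSet O A)
    (hwe : a ^ 2 - a = algebraMap O E π ^ (c + 1) * w) (he : InRad π A (a - e)) :
    a + algebraMap O E π * v ∈ intSet O A ∧ InRad π A (a + algebraMap O E π * v - e) ∧
      ∃ z ∈ intSet O A, (a + algebraMap O E π * v) ^ 2 - (a + algebraMap O E π * v) =
        algebraMap O E π * z := by
  have hπ : algebraMap O E π ∈ intSet O A := algebraMap_mem_intSet A π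
  refine ⟨add_mem ha (mul_mem hπ hv), ?_,
    algebraMap O E π ^ c * w + 2 * a * v + algebraMap O E π * v ^ 2 - v,
    sub_mem (add_mem (add_mem (mul_mem (pow_mem hπ c) hw) (mul_mem (mul_mem (ofNat_mem _ 2) ha) hv))
      (mul_mem hπ (pow_mem hv 2))) hv, by linear_combination hwe⟩
  rw [add_sub_right_comm]
  exact he.add (inRad_pi_mul hv)

omit [IsDomain O] in
/-- Congruences up to the radical multiply. -/
theorem inRad_mul_of_congr {A : Set E} {g g' e e' : E} (hg : g ∈ intSet O A)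
    (he' : e' ∈ intSet O A) (h : InRad π A (g - e)) (h' : InRad π A (g' - e'))
    (hee : InRad π A (e * e')) : InRad π A (g * g') := by
  have h1 := (h'.mul_left hg).add (h.mul_left he')
  rw [show g * g' = g * (g' - e') + e' * (g - e) + e * e' by ring]
  exact h1.add hee

omit [IsDomain O] in
/-- If the coefficients of `P - Q` are `π (x + x')` then `P - π x` and `Q + π x'` have the same
values. -/
theorem aeval_sub_eq_add_of_cf (hm : 0 < m) {β : E} (hβ : β ^ m = algebraMap F E f) {P Q : F[X]}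
    {x x' : ℕ → F} (h : ∀ j < m, cf f m P j - cf f m Q j = algebraMap O F π * (x j + x' j)) :
    aeval β P - algebraMap O E π * aeval β (ofCoeffs m x) =
      aeval β Q + algebraMap O E π * aeval β (ofCoeffs m x') := by
  rw [sub_eq_iff_eq_add, add_assoc, ← mul_add, add_comm (aeval β Q), ← sub_eq_iff_eq_add,
    aeval_eq_sum_cf hm hβ, aeval_eq_sum_cf hm hβ Q, aeval_eq_sum_cf hm hβ,
    aeval_eq_sum_cf hm hβ (ofCoeffs m x), ← Finset.sum_sub_distrib, ← Finset.sum_add_distrib,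
    Finset.mul_sum]
  refine Finset.sum_congr rfl fun j hj => ?_
  have hj' := Finset.mem_range.mp hj
  rw [cf_ofCoeffs _ hj', cf_ofCoeffs _ hj', ← sub_mul, ← map_sub, h j hj', ← add_mul, ← map_add,
    map_mul, ← IsScalarTower.algebraMap_apply, add_comm (x' j)]
  ring

/-- Agreement modulo `π ^ (c + 1)` on the middle chart, with `c` beyond the torsion bound, splits
the difference of coefficients as `π` times a sum from the two outer pieces. -/
theorem exists_split_coeff (hm : 0 < m) (hmu : IsUnit (m : O)) {ζ : O} (hζ : IsPrimitiveRoot ζ m)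
    {β₀ : E} (hβ₀ : β₀ ^ m = algebraMap F E f) (hπ : algebraMap O F π ≠ 0) {c c₀ j : ℕ}
    (hj : j < m) (hle : c₀ ≤ c)
    (hc₀ : ∀ (k : ℕ) (z : F), z ^ m * f ^ j ∈ chartF O E {u, u⁻¹} →
      (∃ a a' : F, a ^ m * f ^ j ∈ chartF O E {u} ∧ a' ^ m * f ^ j ∈ chartF O E {u⁻¹} ∧
        algebraMap O F π ^ k * z = a + a') →
      ∃ a a' : F, a ^ m * f ^ j ∈ chartF O E {u} ∧ a' ^ m * f ^ j ∈ chartF O E {u⁻¹} ∧
        algebraMap O F π ^ c₀ * z = a + a')
    {P Q : F[X]} (hP : ∀ l, aeval (rootAt ζ β₀ l) P ∈ intSet O (algebraMap F E '' {u}))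
    (hQ : ∀ l, aeval (rootAt ζ β₀ l) Q ∈ intSet O (algebraMap F E '' {u⁻¹}))
    (hd : ∀ l < m, ∃ w ∈ intSet O (algebraMap F E '' {u, u⁻¹}),
      aeval (rootAt ζ β₀ l) P - aeval (rootAt ζ β₀ l) Q = algebraMap O E π ^ (c + 1) * w) :
    ∃ x x' : F, x ^ m * f ^ j ∈ chartF O E {u} ∧ x' ^ m * f ^ j ∈ chartF O E {u⁻¹} ∧
      cf f m P j - cf f m Q j = algebraMap O F π * (x + x') := by
  have hπE : algebraMap O E π ≠ 0 := by
    rw [IsScalarTower.algebraMap_apply O F E]
    exact (_root_.map_ne_zero _).mpr hπ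
  set πF := algebraMap O F π
  have hPQ : ∀ l < m, aeval (rootAt ζ β₀ l) (C (πF ^ (c + 1))⁻¹ * (P - Q)) ∈
      intSet O (algebraMap F E '' {u, u⁻¹}) := by
    intro l hl
    obtain ⟨w, hw, hwe⟩ := hd l hl
    rw [map_mul, aeval_C, map_sub, hwe, map_inv₀, map_pow, ← IsScalarTower.algebraMap_apply,
      inv_mul_cancel_left₀ (pow_ne_zero _ hπE)]
    exact hw
  set z := cf f m (C (πF ^ (c + 1))⁻¹ * (P - Q)) j with hz
  have hzc : z ^ m * f ^ j ∈ chartF O E {u, u⁻¹} := cf_mem_of_values hm hmu hζ hβ₀ hPQ hj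
  have hzeq : πF ^ (c + 1) * z = cf f m P j + (-cf f m Q j) := by
    rw [hz, cf_C_mul, mul_inv_cancel_left₀ (pow_ne_zero _ hπ), cf_sub, sub_eq_add_neg]
  have hP' : cf f m P j ∈ piece O E {u} hm hβ₀ j :=
    cf_mem_of_values hm hmu hζ hβ₀ (fun l _ => hP l) hj
  have hQ' : cf f m Q j ∈ piece O E {u⁻¹} hm hβ₀ j :=
    cf_mem_of_values hm hmu hζ hβ₀ (fun l _ => hQ l) hj
  obtain ⟨x, x', hx, hx', hxx⟩ := hc₀ (c + 1) z hzc
    ⟨_, _, hP', (piece O E {u⁻¹} hm hβ₀ j).neg_mem hQ', hzeq⟩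
  refine ⟨πF ^ (c - c₀) * x, πF ^ (c - c₀) * x', ?_, ?_, ?_⟩
  · exact (piece O E {u} hm hβ₀ j).smul_mem
      ⟨πF ^ (c - c₀), pow_mem (Subalgebra.algebraMap_mem _ π) _⟩ hx
  · exact (piece O E {u⁻¹} hm hβ₀ j).smul_mem
      ⟨πF ^ (c - c₀), pow_mem (Subalgebra.algebraMap_mem _ π) _⟩ hx'
  · rw [← mul_add, ← hxx, sub_eq_add_neg, ← hzeq, ← mul_assoc (πF ^ (c - c₀)), ← pow_add,
      Nat.sub_add_cancel hle, ← mul_assoc, ← pow_succ']

omit [IsDomain O] [Algebra O F] [IsScalarTower O F E] in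
/-- An element of both outer chart rings is integral. -/
theorem isIntegral_of_mem_intSet_both {y : E} (h1 : y ∈ intSet O (algebraMap F E '' {u}))
    (h2 : y ∈ intSet O (algebraMap F E '' {u⁻¹})) : IsIntegral O y := by
  rw [Set.image_singleton] at h1 h2
  rw [map_inv₀] at h2
  exact isIntegral_of_both h1 h2

/-- Lifts on the two charts glue to values which are integral over the two charts, congruent to
the given ones up to the radical, and idempotent modulo `π`. -/
theorem CompData.exists_global_idem [IsNoetherianRing O] (D : CompData O F Lk π u f m)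
    (hrad : D.RadHyp E {u}) (hfin : ChartFinite O E u) (hu : u ≠ 0) (hf : f ≠ 0) (hm : 0 < m)
    (hmu : IsUnit (m : O)) (hπ : algebraMap O F π ≠ 0) {ζ : O} (hζ : IsPrimitiveRoot ζ m) {β₀ : E}
    (hβ₀ : β₀ ^ m = algebraMap F E f) {e e' : ℕ → F[X]}
    (he_l : ∀ i p, e i ∈ lifts (D.V p).subtype) (he'_l : ∀ i p, e' i ∈ lifts (D.V p).subtype)
    (he_v : ∀ i l, aeval (rootAt ζ β₀ l) (e i) ∈ intSet O (algebraMap F E '' {u}))
    (he'_v : ∀ i l, aeval (rootAt ζ β₀ l) (e' i) ∈ intSet O (algebraMap F E '' {u⁻¹}))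
    (he_p : ∀ i < m, ∀ p, ∀ l < m, D.phi ζ p l (e i) = D.phi ζ p l (e' i))
    (he_i : ∀ i < m, ∀ l, InRad π (algebraMap F E '' {u})
      (aeval (rootAt ζ β₀ l) (e i) ^ 2 - aeval (rootAt ζ β₀ l) (e i)))
    (he'_i : ∀ i < m, ∀ l, InRad π (algebraMap F E '' {u⁻¹})
      (aeval (rootAt ζ β₀ l) (e' i) ^ 2 - aeval (rootAt ζ β₀ l) (e' i))) :
    ∃ G : ℕ → F[X],
      (∀ i < m, ∀ l, aeval (rootAt ζ β₀ l) (G i) ∈ intSet O (algebraMap F E '' {u}) ∧
        aeval (rootAt ζ β₀ l) (G i) ∈ intSet O (algebraMap F E '' {u⁻¹})) ∧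
      ∀ i < m, ∀ l < m,
        (InRad π (algebraMap F E '' {u}) (aeval (rootAt ζ β₀ l) (G i) - aeval (rootAt ζ β₀ l) (e i))
          ∧ ∃ z ∈ intSet O (algebraMap F E '' {u}), aeval (rootAt ζ β₀ l) (G i) ^ 2 -
            aeval (rootAt ζ β₀ l) (G i) = algebraMap O E π * z) ∧
        (InRad π (algebraMap F E '' {u⁻¹})
            (aeval (rootAt ζ β₀ l) (G i) - aeval (rootAt ζ β₀ l) (e' i)) ∧
          ∃ z ∈ intSet O (algebraMap F E '' {u⁻¹}), aeval (rootAt ζ β₀ l) (G i) ^ 2 -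
            aeval (rootAt ζ β₀ l) (G i) = algebraMap O E π * z) := by
  set r := rootAt ζ β₀ with hr
  have hrp : ∀ l, r l ^ m = algebraMap F E f := rootAt_pow hζ hβ₀
  have hs12 : ∀ p, ({u, u⁻¹} : Set F) ⊆ D.V p := fun p =>
    Set.insert_subset (D.u_mem p) (Set.singleton_subset_iff.mpr (D.u_inv_mem p))
  have hle1 : algebraMap F E '' {u} ⊆ algebraMap F E '' {u, u⁻¹} :=
    Set.image_mono (Set.singleton_subset_iff.mpr (Set.mem_insert u _))
  have hle2 : algebraMap F E '' {u⁻¹} ⊆ algebraMap F E '' {u, u⁻¹} :=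
    Set.image_mono (Set.singleton_subset_iff.mpr (Set.mem_insert_of_mem u rfl))
  have := D.nonempty
  choose c₀ hc₀ using fun j : ℕ => exists_torsion_bound π hu hfin hm hf hβ₀ j
  set c := ∑ j ∈ Finset.range m, c₀ j
  obtain ⟨a, ha_v, ha_i, ha_r⟩ := exists_idem_lift π (c + 1) m r he_v he_i
  obtain ⟨b, hb_v, hb_i, hb_r⟩ := exists_idem_lift π (c + 1) m r he'_v he'_i
  have hdiff : ∀ i < m, ∀ l < m, ∃ w ∈ intSet O (algebraMap F E '' {u, u⁻¹}),
      aeval (r l) (a i) - aeval (r l) (b i) = algebraMap O E π ^ (c + 1) * w := by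
    intro i hi l hl
    have h0 := D.inRad_of_phi hs12 (D.radHyp_pair hu hrad) hm hmu hf hζ hβ₀ (P := e i - e' i)
      (fun l _ => by
        rw [map_sub]
        exact sub_mem (intSet_mono hle1 (he_v i l)) (intSet_mono hle2 (he'_v i l)))
      (fun p l hl => by
        rw [D.phi_sub_of_lifts hm hζ l (he_l i p) (he'_l i p), he_p i hi p l hl, sub_self]) l
    rw [map_sub] at h0
    have h1 := ((inRad_mono hle1 (ha_r i hi l hl)).add h0).sub
      (inRad_mono hle2 (hb_r i hi l hl))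
    rw [show aeval (r l) (a i) - aeval (r l) (e i) + (aeval (r l) (e i) - aeval (r l) (e' i)) -
      (aeval (r l) (b i) - aeval (r l) (e' i)) = aeval (r l) (a i) - aeval (r l) (b i) by
          ring] at h1
    obtain ⟨w, hw, hwe⟩ := ha_i i hi l hl
    obtain ⟨w', hw', hwe'⟩ := hb_i i hi l hl
    exact exists_sub_eq_pi_pow_mul (intSet_mono hle1 (ha_v i l)) (intSet_mono hle2 (hb_v i l))
      (intSet_mono hle1 hw) (intSet_mono hle2 hw') hwe hwe' h1
  choose! x x' hx hx' hxx using fun i (hi : i < m) j (hj : j < m) =>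
    exists_split_coeff hm hmu hζ hβ₀ hπ hj
      (Finset.single_le_sum (fun _ _ => Nat.zero_le _) (Finset.mem_range.mpr hj) : c₀ j ≤ c)
      (hc₀ j) (ha_v i) (hb_v i) (hdiff i hi)
  have hv : ∀ i < m, ∀ l, -aeval (r l) (ofCoeffs m (x i)) ∈ intSet O (algebraMap F E '' {u}) ∧
      aeval (r l) (ofCoeffs m (x' i)) ∈ intSet O (algebraMap F E '' {u⁻¹}) := fun i hi l =>
    ⟨neg_mem (aeval_ofCoeffs_mem hm (hrp l) (hx i hi)), aeval_ofCoeffs_mem hm (hrp l) (hx' i hi)⟩
  have hG1 : ∀ i l, aeval (r l) (a i - C (algebraMap O F π) * ofCoeffs m (x i)) =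
      aeval (r l) (a i) + algebraMap O E π * -aeval (r l) (ofCoeffs m (x i)) := fun i l => by
    rw [map_sub, map_mul, aeval_C, ← IsScalarTower.algebraMap_apply, mul_neg, sub_eq_add_neg]
  have hG2 : ∀ i < m, ∀ l, aeval (r l) (a i - C (algebraMap O F π) * ofCoeffs m (x i)) =
      aeval (r l) (b i) + algebraMap O E π * aeval (r l) (ofCoeffs m (x' i)) := fun i hi l => by
    rw [hG1, mul_neg, ← sub_eq_add_neg, aeval_sub_eq_add_of_cf hm (hrp l) (hxx i hi)]
  refine ⟨fun i => a i - C (algebraMap O F π) * ofCoeffs m (x i), fun i hi l => ⟨?_, ?_⟩,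
    fun i hi l hl => ⟨?_, ?_⟩⟩
  · rw [hG1]
    exact add_mem (ha_v i l) (mul_mem (algebraMap_mem_intSet _ _) (hv i hi l).1)
  · rw [hG2 i hi]
    exact add_mem (hb_v i l) (mul_mem (algebraMap_mem_intSet _ _) (hv i hi l).2)
  · obtain ⟨w, hw, hwe⟩ := ha_i i hi l hl
    rw [hG1]
    exact (idem_correction (ha_v i l) (hv i hi l).1 hw hwe (ha_r i hi l hl)).2
  · obtain ⟨w, hw, hwe⟩ := hb_i i hi l hl
    rw [hG2 i hi]
    exact (idem_correction (hb_v i l) (hv i hi l).2 hw hwe (hb_r i hi l hl)).2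

/-- The idempotent of an index is not nilpotent modulo `π` at all roots. -/
theorem CompData.not_forall_inRad (D : CompData O F Lk π u f m) {s : Set F}
    (hs : ∀ p, s ⊆ D.V p) (hm : 0 < m) (hmu : IsUnit (m : O)) (hf : f ≠ 0)
    (hπ : algebraMap O F π ≠ 0) {ζ : O} (hζ : IsPrimitiveRoot ζ m) {β₀ : E}
    (hβ₀ : β₀ ^ m = algebraMap F E f) {P : F[X]} {i : ℕ}
    (hP : ∀ p, P ∈ lifts (D.V p).subtype) (hphi : ∀ p, D.phi ζ p i P = 1) :
    ¬ ∀ l < m, InRad π (algebraMap F E '' s) (aeval (rootAt ζ β₀ l) P) := by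
  intro hrad
  set r := rootAt ζ β₀ with hr
  have hπE : algebraMap O E π ≠ 0 := by
    rw [IsScalarTower.algebraMap_apply O F E]
    exact (_root_.map_ne_zero _).mpr hπ
  choose! n w hw hnw using fun l (hl : l < m) => (hrad l hl).exists_pow
  set M := ∑ l ∈ Finset.range m, n l + 1
  have hM : ∀ l < m, aeval (r l) (C (algebraMap O F π)⁻¹ * P ^ M) ∈
      intSet O (algebraMap F E '' s) := by
    intro l hl
    obtain ⟨d, hd⟩ : ∃ d, M = n l + d := Nat.exists_eq_add_of_le (le_add_right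
      (Finset.single_le_sum (fun _ _ => Nat.zero_le _) (Finset.mem_range.mpr hl)))
    rw [map_mul, aeval_C, map_pow, hd, pow_add, hnw l hl, map_inv₀,
      ← IsScalarTower.algebraMap_apply, mul_assoc, inv_mul_cancel_left₀ hπE]
    exact mul_mem (hw l hl) (pow_mem (hrad l hl).1 d)
  obtain ⟨p⟩ := D.nonempty
  have hV : ∀ j < m, cf f m (C (algebraMap O F π)⁻¹ * P ^ M) j ∈ D.V p := fun j hj =>
    D.mem_of_pow_mul hm hf j (D.chart_mem hs (cf_mem_of_values hm hmu hζ hβ₀ hM hj) p)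
  have h1 : D.phi ζ p i (P ^ M) = 0 := by
    rw [show P ^ M = C (algebraMap O F π) * (C (algebraMap O F π)⁻¹ * P ^ M) by
      rw [← mul_assoc, ← map_mul, mul_inv_cancel₀ hπ, map_one, one_mul],
      D.phi_C_mul (D.algebraMap_mem p π) hV, D.resT_π, zero_mul]
  rw [D.phi_pow_of_lifts hm hζ i (hP p), hphi p, one_pow] at h1
  exact one_ne_zero h1

variable {K L : Type*} [Field K] [Algebra O K] [IsFractionRing O K] [IsIntegrallyClosed O]
  [IsNoetherianRing O] [Field L] [IsAlgClosed L] [Algebra K L] [CharZero F] [Algebra K F]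
  [IsScalarTower O K F]

local notation "Ω" => AlgebraicClosure F

namespace FixedData

omit [IsDomain O] [IsFractionRing O K] [IsIntegrallyClosed O] [IsNoetherianRing O] [CharZero F] in
/-- The residue of `π` vanishes. -/
theorem res_algebraMap_pi (X : FixedData O K L) : X.res Ω (algebraMap O _ X.π) = 0 := by
  have h1 : X.A.valuation (algebraMap K L (algebraMap O K X.π)) < 1 :=
    (X.lt_one_iff _).mpr dvd_rfl
  show IsLocalRing.residue X.A _ = 0
  rw [IsLocalRing.residue_eq_zero_iff, X.A.valuation_lt_one_iff]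
  show X.A.valuation (FixedData.theta (L := L) Ω _) < 1
  convert h1
  rw [← (FixedData.theta (L := L) Ω).commutes (algebraMap O K X.π)]
  congr 1
  exact Subtype.ext (IsScalarTower.algebraMap_apply O K Ω X.π)

omit [IsDomain O] [IsFractionRing O K] [IsIntegrallyClosed O] [IsNoetherianRing O] [CharZero F] in
/-- An element idempotent modulo `π` on both charts has residue `0` or `1`. -/
theorem res_eq_zero_or_one_of_both (X : FixedData O K L) (hπ : algebraMap O Ω X.π ≠ 0)
    (y : integralClosure O Ω)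
    (h1 : ∃ z ∈ intSet O (algebraMap F Ω '' {u}), (y : Ω) ^ 2 - y = algebraMap O Ω X.π * z)
    (h2 : ∃ z ∈ intSet O (algebraMap F Ω '' {u⁻¹}), (y : Ω) ^ 2 - y = algebraMap O Ω X.π * z) :
    X.res Ω y = 0 ∨ X.res Ω y = 1 := by
  obtain ⟨z, hz, hze⟩ := h1
  obtain ⟨z', hz', hze'⟩ := h2
  obtain rfl : z = z' := mul_left_cancel₀ hπ (hze.symm.trans hze')
  have he : y ^ 2 - y = algebraMap O _ X.π * ⟨z, isIntegral_of_mem_intSet_both hz hz'⟩ :=
    Subtype.ext hze
  have := congrArg (X.res Ω) he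
  rw [map_sub, map_pow, map_mul, X.res_algebraMap_pi, zero_mul, pow_two, ← mul_sub_one] at this
  exact (mul_eq_zero.mp this).imp id sub_eq_zero.mp

omit [IsDomain O] [IsFractionRing O K] [IsIntegrallyClosed O] [IsNoetherianRing O] [CharZero F] in
/-- An element nilpotent modulo `π` on both charts has residue `0`. -/
theorem res_eq_zero_of_inRad_both (X : FixedData O K L) (hπ : algebraMap O Ω X.π ≠ 0)
    (y : integralClosure O Ω) (h1 : InRad X.π (algebraMap F Ω '' {u}) (y : Ω))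
    (h2 : InRad X.π (algebraMap F Ω '' {u⁻¹}) (y : Ω)) : X.res Ω y = 0 := by
  obtain ⟨n, w, hw, hnw⟩ := h1.exists_pow
  obtain ⟨n', w', hw', hnw'⟩ := h2.exists_pow
  have hW : w * (y : Ω) ^ n' = (y : Ω) ^ n * w' := by
    refine mul_left_cancel₀ hπ ?_
    linear_combination (-(y : Ω) ^ n') * hnw + (y : Ω) ^ n * hnw'
  have hWi : IsIntegral O (w * (y : Ω) ^ n') := by
    refine isIntegral_of_mem_intSet_both (u := u) (mul_mem hw (pow_mem h1.1 _)) ?_
    rw [hW]
    exact mul_mem (pow_mem h2.1 _) hw'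
  have he : y ^ (n + n') = algebraMap O _ X.π * ⟨_, hWi⟩ :=
    Subtype.ext (by
      show (y : Ω) ^ (n + n') = algebraMap O Ω X.π * _
      rw [pow_add, hnw, mul_assoc])
  have := congrArg (X.res Ω) he
  rw [map_pow, map_mul, X.res_algebraMap_pi, zero_mul] at this
  exact eq_zero_of_pow_eq_zero this

omit [IsNoetherianRing O] [CharZero F] in
/-- An integral element with zero residue is nilpotent modulo `π` on every chart. -/
theorem inRad_of_res_eq_zero (X : FixedData O K L) [Module.IsTorsionFree O Ω] {A : Set Ω}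
    {y : integralClosure O Ω} (hy : (y : Ω) ∈ intSet O A) (h : X.res Ω y = 0) :
    InRad X.π A (y : Ω) := by
  obtain ⟨d, w, -, hd⟩ := X.exists_pow_eq_of_res_eq_zero h
  refine inRad_of_pow hy (n := d) ?_ (congrArg Subtype.val hd)
  obtain ⟨P, hP, hPw⟩ := w.2
  exact ⟨P.map (algebraMap O _), hP.map _, by rw [eval₂_map]; exact hPw⟩

omit [IsDomain O] [IsFractionRing O K] [IsIntegrallyClosed O] [IsNoetherianRing O] [CharZero F] in
/-- Orthogonal values, each with residue `1` at some root, force every root to be fixed. -/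
theorem aut_fixes_root (X : FixedData O K L) (hm : 0 < m) {ζ : O}
    (hζ : IsPrimitiveRoot (algebraMap O Ω ζ) m) {β₀ : Ω} (hf : f ≠ 0)
    (hβ₀ : β₀ ^ m = algebraMap F Ω f) (G : ℕ → F[X])
    (hint : ∀ i < m, ∀ l, IsIntegral O (aeval (rootAt ζ β₀ l) (G i)))
    (hex : ∀ i (hi : i < m), ∃ l < m, X.res Ω ⟨_, hint i hi l⟩ = 1)
    (horth : ∀ i (hi : i < m) k (hk : k < m), i ≠ k → ∀ l < m,
      X.res Ω ⟨_, hint i hi l⟩ * X.res Ω ⟨_, hint k hk l⟩ = 0)
    (τ : Ω ≃ₐ[F] Ω) : τ β₀ = β₀ := by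
  choose idx hidx hidx1 using hex
  let g : Fin m → Fin m := fun i => ⟨idx i i.2, hidx i i.2⟩
  have hg : Function.Bijective g := Finite.injective_iff_bijective.mp fun i k h => Fin.ext (by
    by_contra hne
    have := horth i i.2 k k.2 hne _ (hidx i i.2)
    simp only [show idx i i.2 = idx k k.2 from congrArg Fin.val h] at this
    have h1 := hidx1 i i.2
    simp only [show idx i i.2 = idx k k.2 from congrArg Fin.val h] at h1
    rw [h1, hidx1 k k.2, one_mul] at this
    exact one_ne_zero this)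
  have : NeZero m := ⟨hm.ne'⟩
  have hr0 : rootAt ζ β₀ 0 = β₀ := by rw [rootAt, pow_zero, one_mul]
  have hβne : β₀ ≠ 0 := fun h => by
    rw [h, zero_pow hm.ne'] at hβ₀
    exact (_root_.map_ne_zero _).mpr hf hβ₀.symm
  obtain ⟨l', hl', hτl⟩ : ∃ l' < m, τ β₀ = rootAt ζ β₀ l' := by
    obtain ⟨l', hl', h⟩ := hζ.eq_pow_of_pow_eq_one (ξ := τ β₀ / β₀) (by
      rw [div_pow, ← map_pow, hβ₀, AlgEquiv.commutes, div_self ((_root_.map_ne_zero _).mpr hf)])
    exact ⟨l', hl', by rw [rootAt, h, div_mul_cancel₀ _ hβne]⟩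
  obtain ⟨i, hi0⟩ := hg.2 ⟨0, hm⟩
  obtain ⟨k, hk⟩ := hg.2 ⟨l', hl'⟩
  have hτ : τ (aeval (rootAt ζ β₀ 0) (G i)) = aeval (rootAt ζ β₀ l') (G i) := by
    rw [hr0, ← hτl, ← AlgEquiv.coe_toAlgHom, ← aeval_algHom_apply]
  have h1 := hidx1 i i.2
  simp only [show idx i i.2 = 0 from congrArg Fin.val hi0] at h1
  rw [X.res_conj (τ.restrictScalars K) (x := ⟨_, hint i i.2 0⟩) (y := ⟨_, hint i i.2 l'⟩) hτ] at h1
  have h2 := hidx1 k k.2
  simp only [show idx k k.2 = l' from congrArg Fin.val hk] at h2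
  have hik : i = k := Fin.ext (by
    by_contra hne
    have := horth i i.2 k k.2 hne l' hl'
    rw [h1, h2, one_mul] at this
    exact one_ne_zero this)
  rw [hτl, show l' = 0 from congrArg Fin.val (hk.symm.trans (hik ▸ hi0)), hr0]

end FixedData

/-- **The cover splits.** -/
theorem exists_pow_eq_of_components (X : FixedData O K L) (hπ : X.π ≠ 0) (hu : u ≠ 0)
    (hf : f ≠ 0) (hm : 0 < m) (hmu : IsUnit (m : O)) {ζ : O} (hζ : IsPrimitiveRoot ζ m)
    (D : CompData O F Lk X.π u f m) (hfin : ChartFinite O Ω u)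
    (hrad : D.RadHyp Ω {u}) (hrad' : D.RadHyp Ω {u⁻¹})
    (hglue : D.GlueHyp Ω {u}) (hglue' : D.GlueHyp Ω {u⁻¹}) :
    ∃ φ : F, φ ^ m = f := by
  classical
  obtain ⟨β₀, hβ₀⟩ := IsAlgClosed.exists_pow_nat_eq (algebraMap F Ω f) hm
  have hs1 : ∀ p, ({u} : Set F) ⊆ D.V p := fun p => Set.singleton_subset_iff.mpr (D.u_mem p)
  have hs2 : ∀ p, ({u⁻¹} : Set F) ⊆ D.V p := fun p =>
    Set.singleton_subset_iff.mpr (D.u_inv_mem p)
  have hinj : Function.Injective (algebraMap O F) := by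
    rw [IsScalarTower.algebraMap_eq O K F]
    exact (algebraMap K F).injective.comp (IsFractionRing.injective O K)
  have hπF : algebraMap O F X.π ≠ 0 := (map_ne_zero_iff _ hinj).mpr hπ
  have hπΩ : algebraMap O Ω X.π ≠ 0 := by
    rw [IsScalarTower.algebraMap_apply O F Ω]
    exact (_root_.map_ne_zero _).mpr hπF
  have : Module.IsTorsionFree O Ω := by
    refine Module.IsTorsionFree.of_smul_eq_zero fun c z h => ?_
    rw [Algebra.smul_def, mul_eq_zero, IsScalarTower.algebraMap_apply O F Ω,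
      map_eq_zero_iff _ (algebraMap F Ω).injective, map_eq_zero_iff _ hinj] at h
    exact h
  -- approximate idempotents on the two charts, glued
  obtain ⟨e, he_l, he_v, he_p, he_i, he_o⟩ := D.preIdem_spec hs1 hrad hglue hm hmu hf hζ hβ₀
  obtain ⟨e', he'_l, he'_v, he'_p, he'_i, he'_o⟩ :=
    D.preIdem_spec hs2 hrad' hglue' hm hmu hf hζ hβ₀
  obtain ⟨G, hG, hGc⟩ :=
      D.exists_global_idem hrad hfin hu hf hm hmu hπF hζ hβ₀ he_l he'_l he_v he'_v
    (fun i hi p l hl => (he_p i hi p l hl).trans (he'_p i hi p l hl).symm) he_i he'_i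
  have hint : ∀ i < m, ∀ l, IsIntegral O (aeval (rootAt ζ β₀ l) (G i)) := fun i hi l =>
    isIntegral_of_mem_intSet_both (hG i hi l).1 (hG i hi l).2
  -- their residues are orthogonal idempotents, none of them zero everywhere
  have horth : ∀ i (hi : i < m) k (hk : k < m), i ≠ k → ∀ l < m,
      X.res Ω ⟨_, hint i hi l⟩ * X.res Ω ⟨_, hint k hk l⟩ = 0 := by
    intro i hi k hk hik l hl
    rw [← map_mul]
    exact X.res_eq_zero_of_inRad_both hπΩ _
      (inRad_mul_of_congr (hG i hi l).1 (he_v k l) (hGc i hi l hl).1.1 (hGc k hk l hl).1.1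
        (he_o i hi k hk hik l))
      (inRad_mul_of_congr (hG i hi l).2 (he'_v k l) (hGc i hi l hl).2.1 (hGc k hk l hl).2.1
        (he'_o i hi k hk hik l))
  have hex : ∀ i (hi : i < m), ∃ l < m, X.res Ω ⟨_, hint i hi l⟩ = 1 := by
    intro i hi
    by_contra hcon
    push Not at hcon
    refine D.not_forall_inRad hs1 hm hmu hf hπF hζ hβ₀ (he_l i)
      (fun p => (he_p i hi p i hi).trans (if_pos rfl)) fun l hl => ?_
    have h0 : X.res Ω ⟨_, hint i hi l⟩ = 0 :=
      (X.res_eq_zero_or_one_of_both hπΩ _ (hGc i hi l hl).1.2 (hGc i hi l hl).2.2).resolve_right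
        (hcon l hl)
    have h := (X.inRad_of_res_eq_zero (y := ⟨_, hint i hi l⟩) (hG i hi l).1 h0).sub
      (hGc i hi l hl).1.1
    rwa [sub_sub_cancel] at h
  -- all roots are fixed
  have hζΩ : IsPrimitiveRoot (algebraMap O Ω ζ) m := hζ.map_of_injective (f := algebraMap O Ω) (by
    rw [IsScalarTower.algebraMap_eq O F Ω]
    exact (algebraMap F Ω).injective.comp hinj)
  obtain ⟨φ, hφ⟩ := (InfiniteGalois.mem_range_algebraMap_iff_fixed β₀).mpr
    (X.aut_fixes_root hm hζΩ hf hβ₀ G hint hex horth)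
  exact ⟨φ, (algebraMap F Ω).injective (by rw [map_pow, hφ, hβ₀])⟩

end Main

end FLTAgent.CarayolSquare
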