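import Fermat.Agent.CarayolSquare.PointPower

/-!
# Gluing at a regular point on one component

`RegPoint.exists_glue`: at a regular point through which exactly one component passes, the roots
of the residues glue.  Used by `Geometry.Single`.
-/

set_option autoImplicit false

noncomputable section

namespace FLTAgent.CarayolSquare

variable {O F Lk k : Type*} [CommRing O] [Field F] [Field Lk] [Field k] [Algebra O F]
  {π : O} {u f : F} {m : ℕ}

theorem valuation_lt_one_congr {V V' : ValuationSubring F} (h : V = V') (z : F) :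
    V.valuation z < 1 ↔ V'.valuation z < 1 := by subst h; rfl

/-- At a regular point on a single component the roots glue. -/
theorem RegPoint.exists_glue (D : CompData O F Lk π u f m) {B : Subring F} {φ : B →+* k}
    (hB : ∀ p, ∀ b ∈ B, b ∈ D.V p) (R : RegPoint B φ) (hc : R.Centred) (p₀ : D.ι)
    (hV : R.V = D.V p₀)
    (hres : ∀ z : D.V p₀, D.res p₀ z = 0 ↔ (D.V p₀).valuation z < 1)
    (hm : 0 < m) (hf : f ≠ 0) (hdiv : R.DivisibleAt f m)
    (hg : ∃ G : D.V p₀, D.res p₀ G = D.g p₀)
    (hsep : ∀ p, p ≠ p₀ → ∃ e : B, φ e ≠ 0 ∧ D.resT p e = 0) [Fintype D.ι] (j : ℕ) :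
    ∃ s₀ : B, φ s₀ ≠ 0 ∧ ∃ y : F, y ^ m * f ^ j ∈ B ∧
      ∀ p, D.resT p y * D.g p ^ j = D.resT p s₀ := by
  classical
  obtain ⟨u', h, hu, hh0, hfu⟩ := R.exists_unit_mul_pow_of_divisible hc hf hm hdiv
  have hloc : ∀ z ∈ R.loc, z ∈ D.V p₀ := fun z hz => hV ▸ R.loc_le_V hz hc
  have hf1 : (D.V p₀).valuation f = 1 := by
    refine le_antisymm (((D.V p₀).valuation_le_one_iff _).mpr (D.f_mem p₀)) ?_
    have h1 := ((D.V p₀).valuation_le_one_iff _).mpr (D.f_inv_mem p₀)
    rw [map_inv₀] at h1
    exact (inv_le_one₀ ((D.V p₀).valuation.pos_iff.mpr hf)).mp h1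
  obtain ⟨G, hG⟩ := hg
  obtain ⟨V, hVeq⟩ : ∃ V, V = D.V p₀ := ⟨_, rfl⟩
  -- transport the component to the place of the point
  let ψ : R.V →+* Lk := (D.res p₀).comp
    (R.V.subtype.codRestrict (D.V p₀).toSubring fun z => hV ▸ z.2)
  have hψ : ∀ z : R.V, ψ z = 0 ↔ R.V.valuation z < 1 := fun z => by
    rw [show ψ z = D.res p₀ ⟨z, hV ▸ z.2⟩ from rfl, hres]
    exact valuation_lt_one_congr hV.symm _
  obtain ⟨r, hr, hrg⟩ := R.exists_lift_root hc ψ hψ (f := f) hu hfu hm (by rw [hV]; exact hf1)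
    (G := G) (by rw [hV]; exact G.2) (by
      show D.res p₀ G ^ m = D.res p₀ ⟨f, D.f_mem p₀⟩
      rw [hG, D.g_pow])
  obtain ⟨r', hr'⟩ := hr.exists_right_inv
  set w : R.loc := (u' * r' ^ m) ^ j with hw
  obtain ⟨a, s, hs, has⟩ := w.2
  choose! e he1 he2 using hsep
  set t : B := Subring.inclusion R.le s * ∏ p ∈ Finset.univ.erase p₀, e p with ht
  have hh : h ∈ D.V p₀ := by
    refine ((D.V p₀).valuation_le_one_iff _).mp ?_
    have hu1 : (D.V p₀).valuation (u' : F) = 1 := by
      obtain ⟨v, hv⟩ := hu.exists_right_inv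
      have h1 := ((D.V p₀).valuation_le_one_iff _).mpr (hloc _ u'.2)
      have h2 := ((D.V p₀).valuation_le_one_iff _).mpr (hloc _ v.2)
      refine le_antisymm h1 ?_
      have h3 := congrArg (fun z : R.loc => (D.V p₀).valuation (z : F)) hv
      push_cast at h3
      rw [map_mul, map_one] at h3
      calc (1 : _) = (D.V p₀).valuation u' * (D.V p₀).valuation v := h3.symm
        _ ≤ (D.V p₀).valuation u' * 1 := mul_le_mul_of_nonneg_left h2 zero_le
        _ = _ := mul_one _
    have h4 := congrArg (D.V p₀).valuation hfu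
    rw [map_mul, map_pow, hu1, one_mul, hf1] at h4
    exact le_of_eq ((pow_eq_one_iff_left hm.ne').mp h4.symm)
  have hrV : (r : F) * h ∈ D.V p₀ := (D.V p₀).mul_mem _ _ (hloc _ r.2) hh
  have hφt : φ t ≠ 0 := by
    rw [ht, map_mul, map_prod]
    exact mul_ne_zero hs (Finset.prod_ne_zero_iff.mpr fun p hp => he1 p (Finset.mem_erase.mp hp).1)
  refine ⟨t, hφt, ?_⟩
  set y : F := (t : F) * ((r' : F) / h) ^ j with hy
  have hyB : y ^ m * f ^ j ∈ B := by
    have e1 : ((r' : F) / h) ^ (j * m) * f ^ j = w := by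
      rw [hw, hfu]
      push_cast
      rw [mul_pow, mul_pow, ← pow_mul, ← pow_mul, div_pow]
      field_simp
      ring
    obtain ⟨m', hm'⟩ : ∃ m', m = m' + 1 := ⟨m - 1, by omega⟩
    have e2 : y ^ m * f ^ j = (t : F) ^ m' * ((∏ p ∈ Finset.univ.erase p₀, e p : B) : F) * a := by
      have htm : (t : F) ^ m = (t : F) ^ m' * t := by rw [← pow_succ, ← hm']
      rw [hy, mul_pow, ← pow_mul, mul_assoc, e1, htm, ht, ← has]
      push_cast
      rw [show ((Subring.inclusion R.le s : B) : F) = (s : F) from rfl]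
      ring
    rw [e2]
    exact mul_mem (mul_mem (pow_mem t.2 m') (Subtype.coe_prop _)) (R.le a.2)
  refine ⟨y, hyB, fun p => ?_⟩
  by_cases hp : p = p₀
  · subst hp
    have hr'V : (r' : F) / h ∈ D.V p := by
      rw [← (D.V p).valuation_le_one_iff, map_div₀]
      have h1 := ((D.V p).valuation_le_one_iff _).mpr (hloc _ r'.2)
      have h5 : (D.V p).valuation h = 1 := by
        refine le_antisymm (((D.V p).valuation_le_one_iff _).mpr hh) (not_lt.mp fun hlt => ?_)
        have h4 := congrArg (D.V p).valuation hfu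
        rw [map_mul, map_pow, hf1] at h4
        have : (D.V p).valuation (u' : F) * (D.V p).valuation h ^ m < 1 :=
          lt_of_le_of_lt
              (mul_le_of_le_one_left' (((D.V p).valuation_le_one_iff _).mpr (hloc _ u'.2)))
            (pow_lt_one₀ zero_le hlt hm.ne')
        exact this.ne h4.symm
      rw [h5, div_one]
      exact h1
    rw [hy, D.resT_mul (hB p t t.2) (pow_mem hr'V j), D.resT_pow hr'V, mul_assoc, ← mul_pow]
    have h6 : D.resT p ((r' : F) / h) * D.g p = 1 := by
      have h7 : D.res p ⟨(r : F) * h, hrV⟩ = D.g p := (hrg (hV.symm ▸ hrV)).trans hG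
      rw [← h7, ← D.resT_eq hrV, ← D.resT_mul hr'V hrV]
      have h8 : (r' : F) / h * ((r : F) * h) = ((r * r' : R.loc) : F) := by
        rw [Subring.coe_mul]
        field_simp
      rw [h8, hr']
      exact D.resT_one p
    rw [h6, one_pow, mul_one]
  · have h0 : D.resT p t = 0 := by
      have hmem : ∀ b : B, (b : F) ∈ D.V p := fun b => hB p b b.2
      rw [ht, ← Finset.mul_prod_erase _ _ (Finset.mem_erase.mpr ⟨hp, Finset.mem_univ p⟩),
          ← mul_assoc,
        Subring.coe_mul, Subring.coe_mul,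
            D.resT_mul ((D.V p).mul_mem _ _ (hmem _) (hmem _)) (hmem _),
        D.resT_mul (hmem _) (hmem _), he2 p hp, mul_zero, zero_mul]
    rw [h0]
    have hy0 : D.resT p y = 0 := by
      have hyV : y ∈ D.V p := D.mem_of_pow_mul hm hf j (hB p _ hyB)
      obtain ⟨m', hm'⟩ : ∃ m', m = m' + 1 := ⟨m - 1, by omega⟩
      -- `y ^ m * f ^ j` is a multiple of `t`
      have e3 : (y ^ m * f ^ j) * (s : F) = (t : F) ^ m * a := by
        rw [hy, mul_pow, ← pow_mul, mul_comm j m, hfu, ← has, hw]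
        push_cast
        rw [mul_pow, mul_pow, ← pow_mul, ← pow_mul, div_pow]
        field_simp
      have e4 : (y ^ m * f ^ j) = (t : F) ^ m' *
          ((∏ p ∈ Finset.univ.erase p₀, e p : B) : F) * a := by
        have hsne : (s : F) ≠ 0 := R.coe_ne_zero hs
        refine mul_right_cancel₀ hsne ?_
        have htm : (t : F) ^ m = (t : F) ^ m' * t := by rw [← pow_succ, ← hm']
        rw [e3, htm, ht]
        push_cast
        rw [show ((Subring.inclusion R.le s : B) : F) = (s : F) from rfl]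
        ring
      have hmem : ∀ b : B, (b : F) ∈ D.V p := fun b => hB p b b.2
      have hz : D.resT p ((∏ p ∈ Finset.univ.erase p₀, e p : B) : F) = 0 := by
        rw [← Finset.mul_prod_erase _ _ (Finset.mem_erase.mpr ⟨hp, Finset.mem_univ p⟩),
            Subring.coe_mul,
          D.resT_mul (hmem _) (hmem _), he2 p hp, zero_mul]
      have h1 : D.resT p (y ^ m * f ^ j) = 0 := by
        rw [e4, D.resT_mul ((D.V p).mul_mem _ _ (pow_mem (hmem t) m') (hmem _)) (hB p _ (R.le a.2)),
          D.resT_mul (pow_mem (hmem t) m') (hmem _), hz]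
        simp
      rw [D.resT_mul (pow_mem hyV m) (pow_mem (D.f_mem p) j), D.resT_pow hyV,
        D.resT_pow (D.f_mem p)] at h1
      rcases mul_eq_zero.mp h1 with h | h
      · exact eq_zero_of_pow_eq_zero h
      · exact absurd h (pow_ne_zero j (D.resT_f_ne_zero p hf))
    rw [hy0, zero_mul]

end FLTAgent.CarayolSquare
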