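import Fermat.Agent.SemistableHecke.Pushforward

/-!
# The interface between the local geometry and the Galois side

`CoreInput` is the bound on torsion fixed by inertia and killed by both pushforwards.  It is proved
by the local geometry at `q` and used by the Galois side to show that a newform of level exactly
divisible by `q²` has non-unipotent inertia at `q`.
-/

set_option autoImplicit false

noncomputable section

open ModularCurve FLTAgent.SemistableHecke

namespace FLTAgent.CarayolSquare

local notation "Qbar" => AlgebraicClosure ℚ

/-- The local theorem at level `N₁ * q`, meant for `N₁` exactly divisible by `q`: torsion of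
`p`-power order fixed by inertia at `q` and killed by both pushforwards is bounded. -/
def CoreFixed (N₁ q p : ℕ) [NeZero N₁] [NeZero q] : Prop :=
  ∀ P : ValuationSubring Qbar, P.LiesOverPrime q → ∃ c : ℕ, ∀ (k : ℕ) (x : JZero (N₁ * q)),
    (p ^ k) • x = 0 → (∀ σ ∈ P.inertiaSubgroupIn ℚ, σ • x = x) →
      pushJ (heckeAlphaBar Qbar N₁ q) x = 0 → pushJ (heckeBetaBar Qbar N₁ q) x = 0 →
        (p ^ c) • x = 0

/-- The family of local inputs used by the Galois side. -/
def CoreInput : Prop :=
  ∀ (q p N₁ : ℕ) [NeZero N₁] [NeZero q], q.Prime → p.Prime → q ≠ p → q ∣ N₁ → ¬ q ^ 2 ∣ N₁ →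
    CoreFixed N₁ q p

end FLTAgent.CarayolSquare
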