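import Fermat.Agent.CarayolSquare.Chart
import Mathlib.RingTheory.RootsOfUnity.PrimitiveRoots
import Mathlib.Algebra.Ring.GeomSum
import Mathlib.Tactic.Ring

/-!
# Auxiliary algebra for cyclic covers

Orthogonality of roots of unity and extraction of coefficients (`extract_coeff`), lifting of
idempotents (`idemStep`), and transfer of chart membership (`mem_chartF_iff`).
-/

set_option autoImplicit false

noncomputable section

namespace FLTAgent.CarayolSquare

open Polynomial

theorem orth_sum {O : Type*} [CommRing O] [IsDomain O] {ζ : O} {m : ℕ} (hζ : IsPrimitiveRoot ζ m)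
    {i j : ℕ} (hi : i < m) (hj : j < m) :
    ∑ l ∈ Finset.range m, (ζ ^ l) ^ i * (ζ ^ l) ^ (m - j) = if i = j then (m : O) else 0 := by
  simp_rw [← pow_add, ← pow_mul, mul_comm _ (i + (m - j)), pow_mul]
  split_ifs with h
  · subst h
    rw [show i + (m - i) = m by omega]
    simp [hζ.pow_eq_one]
  · set x := ζ ^ (i + (m - j))
    have hx : x ≠ 1 := by
      intro hx
      obtain ⟨c, hc⟩ := (hζ.pow_eq_one_iff_dvd _).mp hx
      rcases Nat.lt_or_ge c 2 with hc2 | hc2
      · interval_cases c <;> omega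
      · have := Nat.mul_le_mul_left m hc2
        omega
    have h1 : (∑ l ∈ Finset.range m, x ^ l) * (x - 1) = 0 := by
      rw [geom_sum_mul, ← pow_mul, mul_comm, pow_mul, hζ.pow_eq_one, one_pow, sub_self]
    exact (mul_eq_zero.mp h1).resolve_right (sub_ne_zero.mpr hx)

theorem extract_coeff {O R : Type*} [CommRing O] [IsDomain O] [CommRing R] (ψ : O →+* R) {ζ : O}
    {m : ℕ} (hζ : IsPrimitiveRoot ζ m) (c : ℕ → R) (b : R) {j : ℕ} (hj : j < m) :
    ∑ l ∈ Finset.range m, (ψ ζ ^ l) ^ (m - j) *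
      (∑ i ∈ Finset.range m, c i * (ψ ζ ^ l * b) ^ i) = (m : R) * (c j * b ^ j) := by
  calc _ = ∑ i ∈ Finset.range m, c i * b ^ i *
        ψ (∑ l ∈ Finset.range m, (ζ ^ l) ^ i * (ζ ^ l) ^ (m - j)) := by
        simp_rw [map_sum, Finset.mul_sum]
        rw [Finset.sum_comm]
        refine Finset.sum_congr rfl fun i _ => Finset.sum_congr rfl fun l _ => ?_
        simp only [map_mul, map_pow]
        ring
    _ = _ := by
      rw [Finset.sum_eq_single j]
      · rw [orth_sum hζ hj hj, if_pos rfl, map_natCast]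
        ring
      · intro i hi hne
        rw [orth_sum hζ (Finset.mem_range.mp hi) hj, if_neg hne, map_zero, mul_zero]
      · intro h
        exact absurd (Finset.mem_range.mpr hj) h

/-- The Newton step for idempotents. -/
def idemStep {R : Type*} [CommRing R] (x : R) : R := 3 * x ^ 2 - 2 * x ^ 3

theorem idemStep_iterate {R : Type*} [CommRing R] (x : R) (k : ℕ) :
    (x ^ 2 - x) ^ 2 ^ k ∣ (idemStep^[k] x) ^ 2 - idemStep^[k] x ∧
      x ^ 2 - x ∣ idemStep^[k] x - x := by
  induction k with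
  | zero => simp
  | succ k ih =>
    obtain ⟨h1, h2⟩ := ih
    rw [Function.iterate_succ_apply']
    set y := idemStep^[k] x with hy
    constructor
    · refine (?_ : _ ∣ (y ^ 2 - y) ^ 2).trans ⟨4 * (y ^ 2 - y) - 3, by rw [idemStep]; ring⟩
      rw [pow_succ 2 k, pow_mul]
      exact pow_dvd_pow_of_dvd h1 2
    · have h3 : x ^ 2 - x ∣ idemStep y - y := by
        refine ((dvd_pow_self _ (pow_ne_zero k two_ne_zero)).trans h1).trans
          ⟨-(2 * y - 1), by rw [idemStep]; ring⟩
      have := dvd_add h3 h2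
      rwa [sub_add_sub_cancel] at this

theorem idemStep_map {R S : Type*} [CommRing R] [CommRing S] (ψ : R →+* S) (x : R) (k : ℕ) :
    ψ (idemStep^[k] x) = idemStep^[k] (ψ x) := by
  induction k with
  | zero => rfl
  | succ k ih =>
    rw [Function.iterate_succ_apply', Function.iterate_succ_apply', ← ih, idemStep, idemStep]
    simp [map_ofNat]

theorem idem_eq_of_isNilpotent {R : Type*} [CommRing R] {a b : R} (ha : a ^ 2 = a) (hb : b ^ 2 = b)
    (h : IsNilpotent (a - b)) : a = b := by
  have h3 : (a - b) ^ 3 = a - b := by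
    have e : (a - b) ^ 3 = a ^ 2 * a - 3 * a ^ 2 * b + 3 * a * b ^ 2 - b ^ 2 * b := by ring
    rw [e, ha, hb, ← pow_two a, ← pow_two b, ha, hb]
    ring
  have hk : ∀ k, (a - b) ^ 3 ^ k = a - b := by
    intro k
    induction k with
    | zero => simp
    | succ k ih => rw [pow_succ, pow_mul, ih, h3]
  obtain ⟨n, hn⟩ := h
  have := pow_eq_zero_of_le (Nat.lt_pow_self (show 1 < 3 by norm_num)).le hn
  rw [hk] at this
  exact sub_eq_zero.mp this

theorem mem_chartF_iff {O F E : Type*} [CommRing O] [Field F] [Field E] [Algebra O F] [Algebra O E]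
    [Algebra F E] [IsScalarTower O F E] {s : Set F} {x : F} :
    x ∈ chartF O E s ↔ IsIntegral (Algebra.adjoin O s) x := by
  let φ : F →ₐ[O] E := IsScalarTower.toAlgHom O F E
  have hmap : Algebra.adjoin O (algebraMap F E '' s) = (Algebra.adjoin O s).map φ :=
    (AlgHom.map_adjoin φ s).symm
  let ψ : Algebra.adjoin O s →+* Algebra.adjoin O (algebraMap F E '' s) :=
    (φ.toRingHom.comp (Algebra.adjoin O s).val.toRingHom).codRestrict _
      fun a => by rw [hmap]; exact ⟨a, a.2, rfl⟩
  have hψ : Function.Surjective ψ := by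
    rintro ⟨b, hb⟩
    rw [hmap] at hb
    obtain ⟨a, ha, rfl⟩ := hb
    exact ⟨⟨a, ha⟩, rfl⟩
  have hev : ∀ P : (Algebra.adjoin O s)[X],
      eval₂ (algebraMap (Algebra.adjoin O (algebraMap F E '' s)) E) (algebraMap F E x) (P.map ψ) =
        algebraMap F E (eval₂ (algebraMap (Algebra.adjoin O s) F) x P) := by
    intro P
    rw [eval₂_map, hom_eval₂]
    rfl
  constructor
  · rintro ⟨Q, hQ, hQx⟩
    obtain ⟨P, hP, -, hPm⟩ := lifts_and_degree_eq_and_monic (map_surjective ψ hψ Q) hQ
    refine ⟨P, hPm, (algebraMap F E).injective ?_⟩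
    rw [map_zero, ← hev, hP]
    exact hQx
  · rintro ⟨P, hP, hPx⟩
    exact ⟨P.map ψ, hP.map _, by rw [hev, hPx, map_zero]⟩

end FLTAgent.CarayolSquare
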