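import Fermat.Agent.CarayolSquare.CoreOfGlue
import Fermat.Agent.CarayolSquare.Supersingular.Super
import Fermat.Agent.CarayolSquare.Cusps.Cusps
import Fermat.Agent.CarayolSquare.Ordinary.Ordinary
import Fermat.Agent.CarayolSquare.Galois.Final
import Fermat.Agent.ConductorMatch.Match

/-!
# The theorem of Carayol at primes `q` with `q² ∥ M`

The roots descend on every model at level `q² M` because the model glues at ordinary, supersingular
and cusp points; so the attached representation is not unipotent on inertia at `q`.

* `FLTAgent.CarayolSquare.carayol`: the statement S36, in the shape `ConductorMatch.CarayolInput`.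
-/

set_option autoImplicit false

noncomputable section

namespace FLTAgent.CarayolSquare

/-- **The theorem of Carayol.** -/
theorem carayol : ConductorMatch.CarayolInput :=
  fun hg lam _ S O' _ _ _ _ _ _ hlamO' hlam2 chig hchig iota hlamS hMS hres =>
    Galois.exists_of_coreInput
      (coreInput_of_glue fun _ _ _ G => ⟨G.glueOrdinary, G.glueSupersingular, G.glueCusps⟩)
      hg lam S O' hlamO' hlam2 chig hchig iota hlamS hMS hres

end FLTAgent.CarayolSquare
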