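import Fermat.Agent.CarayolSquare.Regular

/-!
# Functions with divisible orders at a regular point

At a regular point a function whose orders at all curves through the point are divisible by `m` is
a unit times an `m`-th power (`exists_unit_mul_pow_of_divisible`), and the root of its residue on
the unique component lifts (`exists_lift_root`).
-/

set_option autoImplicit false

noncomputable section

namespace FLTAgent.CarayolSquare

variable {F : Type*} [Field F] {k : Type*} [Field k] {B : Subring F} {φ : B →+* k}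

namespace RegPoint

variable (R : RegPoint B φ)

theorem exists_frac_loc (z : F) : ∃ a b : R.loc, (b : F) ≠ 0 ∧ z * b = a := by
  obtain ⟨a, s, hs, h⟩ := R.frac z
  exact ⟨algebraMap R.S R.loc a, algebraMap R.S R.loc s, hs, h⟩

/-- The valuation ring of a prime element of the local ring. -/
def primeV (hc : R.Centred) {ϖ : R.loc} (hϖ : Prime ϖ) : ValuationSubring F where
  carrier := {z | ∃ a b : R.loc, ¬ ϖ ∣ b ∧ z * b = a}
  one_mem' := ⟨1, 1, fun h => hϖ.not_isUnit (isUnit_of_dvd_one h), by simp⟩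
  zero_mem' := ⟨0, 1, fun h => hϖ.not_isUnit (isUnit_of_dvd_one h), by simp⟩
  mul_mem' := by
    rintro z w ⟨a, b, hb, h⟩ ⟨a', b', hb', h'⟩
    refine ⟨a * a', b * b', fun hd => (hϖ.dvd_or_dvd hd).elim hb hb', ?_⟩
    push_cast
    linear_combination (w * b') * h + (a : F) * h'
  add_mem' := by
    rintro z w ⟨a, b, hb, h⟩ ⟨a', b', hb', h'⟩
    refine ⟨a * b' + a' * b, b * b', fun hd => (hϖ.dvd_or_dvd hd).elim hb hb', ?_⟩
    push_cast
    linear_combination (b' : F) * h + (b : F) * h'
  neg_mem' := by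
    rintro z ⟨a, b, hb, h⟩
    refine ⟨-a, b, hb, ?_⟩
    push_cast
    linear_combination -h
  mem_or_inv_mem' := by
    intro z
    have := R.ufm hc
    obtain ⟨a, b, hb, h⟩ := R.exists_frac_loc z
    by_cases ha : a = 0
    · left
      refine ⟨0, 1, fun h => hϖ.not_isUnit (isUnit_of_dvd_one h), ?_⟩
      rw [ha, ZeroMemClass.coe_zero, mul_eq_zero] at h
      simp [h.resolve_right hb]
    obtain ⟨i, a', ha', haeq⟩ := WfDvdMonoid.max_power_factor ha hϖ.irreducible
    obtain ⟨j, b', hb', hbeq⟩ := WfDvdMonoid.max_power_factor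
      (show b ≠ 0 from fun h0 => hb (congrArg Subtype.val h0)) hϖ.irreducible
    subst haeq hbeq
    push_cast at h
    have hϖ0 : (ϖ : F) ≠ 0 := fun h0 => hϖ.ne_zero (Subtype.ext h0)
    rcases le_total j i with hji | hij
    · obtain ⟨d, rfl⟩ := Nat.exists_eq_add_of_le hji
      refine Or.inl ⟨ϖ ^ d * a', b', hb', mul_left_cancel₀ (pow_ne_zero j hϖ0) ?_⟩
      push_cast
      linear_combination h
    · obtain ⟨d, rfl⟩ := Nat.exists_eq_add_of_le hij
      refine Or.inr ⟨ϖ ^ d * b', a', ha', ?_⟩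
      push_cast
      have hz : z ≠ 0 := by
        rintro rfl
        rw [zero_mul, eq_comm, mul_eq_zero] at h
        exact h.elim (pow_ne_zero i hϖ0) fun h0 => ha' (by
          rw [show a' = 0 from Subtype.ext h0]; exact dvd_zero ϖ)
      refine mul_left_cancel₀ (pow_ne_zero i hϖ0) (mul_left_cancel₀ hz ?_)
      linear_combination -h + ((ϖ : F) ^ i * (a' : F)) * mul_inv_cancel₀ hz

theorem loc_le_primeV (hc : R.Centred) {ϖ : R.loc} (hϖ : Prime ϖ) {z : F} (hz : z ∈ R.loc) :
    z ∈ R.primeV hc hϖ :=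
  ⟨⟨z, hz⟩, 1, fun h => hϖ.not_isUnit (isUnit_of_dvd_one h), by simp⟩

theorem primeV_valuation_eq_one (hc : R.Centred) {ϖ : R.loc} (hϖ : Prime ϖ) {b : R.loc}
    (hb : ¬ ϖ ∣ b) : (R.primeV hc hϖ).valuation b = 1 := by
  have hb0 : (b : F) ≠ 0 := fun h => hb (by
    rw [show b = 0 from Subtype.ext h]; exact dvd_zero ϖ)
  refine le_antisymm (((R.primeV hc hϖ).valuation_le_one_iff _).mpr (R.loc_le_primeV hc hϖ b.2)) ?_
  have hinv : (b : F)⁻¹ ∈ R.primeV hc hϖ :=
    ⟨1, b, hb, by rw [inv_mul_cancel₀ hb0]; rfl⟩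
  have h := ((R.primeV hc hϖ).valuation_le_one_iff _).mpr hinv
  rw [map_inv₀] at h
  exact (inv_le_one₀ ((R.primeV hc hϖ).valuation.pos_iff.mpr hb0)).mp h

theorem primeV_valuation_lt (hc : R.Centred) {ϖ : R.loc} (hϖ : Prime ϖ) :
    (R.primeV hc hϖ).valuation ϖ < 1 := by
  refine lt_of_le_of_ne (((R.primeV hc hϖ).valuation_le_one_iff _).mpr
    (R.loc_le_primeV hc hϖ ϖ.2)) fun h => ?_
  have hinv : (ϖ : F)⁻¹ ∈ R.primeV hc hϖ := by
    rw [← (R.primeV hc hϖ).valuation_le_one_iff, map_inv₀, h, inv_one]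
  obtain ⟨a, b, hb, hab⟩ := hinv
  refine hb ⟨a, Subtype.ext ?_⟩
  push_cast
  rw [← hab, ← mul_assoc, mul_inv_cancel₀ (fun h0 => hϖ.ne_zero (Subtype.ext h0)), one_mul]

/-- `f` has orders divisible by `m` at every curve through the point. -/
def DivisibleAt (f : F) (m : ℕ) : Prop :=
  ∀ W : ValuationSubring F, (∀ z ∈ R.loc, z ∈ W) →
    (∃ w : R.loc, w ∈ IsLocalRing.maximalIdeal R.loc ∧ W.valuation w = 1) →
      ∃ z : F, W.valuation f = W.valuation z ^ m

theorem exists_pow_of_multiplicities [UniqueFactorizationMonoid R.loc] (m : ℕ) (c : R.loc) :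
    c ≠ 0 → (∀ ϖ : R.loc, Prime ϖ → ∀ (i : ℕ) (c' : R.loc), ¬ ϖ ∣ c' → c = ϖ ^ i * c' → m ∣ i) →
      ∃ u d : R.loc, IsUnit u ∧ c = u * d ^ m := by
  induction c using (wellFounded_dvdNotUnit (α := R.loc)).induction with
  | _ c ih =>
    intro hc hmul
    by_cases hu : IsUnit c
    · exact ⟨c, 1, hu, by simp⟩
    obtain ⟨ϖ, hϖi, hdvd⟩ := WfDvdMonoid.exists_irreducible_factor hu hc
    have hϖ : Prime ϖ := UniqueFactorizationMonoid.irreducible_iff_prime.mp hϖi
    obtain ⟨i, c', hc', rfl⟩ := WfDvdMonoid.max_power_factor hc hϖi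
    have hi : i ≠ 0 := fun h => hc' (by simpa [h] using hdvd)
    obtain ⟨l, rfl⟩ := hmul ϖ hϖ i c' hc' rfl
    have hc'0 : c' ≠ 0 := fun h => hc (by rw [h, mul_zero])
    obtain ⟨u, d, hu', rfl⟩ := ih c' ⟨hc'0, ϖ ^ (m * l),
        fun hu0 => hϖ.not_isUnit ((isUnit_pow_iff hi).mp hu0), mul_comm _ _⟩ hc'0
      fun ρ hρ i' e he heq => by
        by_cases hass : ρ ∣ ϖ
        · have : ¬ ρ ∣ c' := fun h => hc' ((hρ.associated_of_dvd hϖ hass).symm.dvd.trans h)
          rcases Nat.eq_zero_or_pos i' with h | h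
          · exact h ▸ dvd_zero m
          · exact absurd (heq ▸ Dvd.dvd.mul_right (dvd_pow_self ρ h.ne') e) this
        · refine hmul ρ hρ i' (ϖ ^ (m * l) * e) (fun h => ?_) (by rw [heq]; ring)
          exact (hρ.dvd_or_dvd h).elim (fun h => hass (hρ.dvd_of_dvd_pow h)) he
    exact ⟨u, ϖ ^ l * d, hu', by rw [mul_pow, ← pow_mul, mul_comm l m]; ring⟩

/-- A function with divisible orders is a unit times a power. -/
theorem exists_unit_mul_pow_of_divisible (hc : R.Centred) {f : F} (hf : f ≠ 0) {m : ℕ}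
    (hm : 0 < m) (hdiv : R.DivisibleAt f m) :
    ∃ (u : R.loc) (h : F), IsUnit u ∧ h ≠ 0 ∧ f = u * h ^ m := by
  classical
  have := R.ufm hc
  obtain ⟨a, b, hb, hab⟩ := R.exists_frac_loc f
  set c : R.loc := a * b ^ (m - 1) with hcdef
  have hfc : f * (b : F) ^ m = c := by
    rw [hcdef, Subring.coe_mul, Subring.coe_pow, ← hab]
    conv_lhs => rw [show m = (m - 1) + 1 by omega, pow_succ]
    ring
  have hc0 : c ≠ 0 := fun h => by
    rw [h, ZeroMemClass.coe_zero, mul_eq_zero] at hfc
    exact hfc.elim hf (pow_ne_zero m hb)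
  obtain ⟨u, d, hu, hud⟩ := R.exists_pow_of_multiplicities m c hc0
    fun ϖ hϖ i c' hc' heq => by
      set W := R.primeV hc hϖ
      have hvϖ := R.primeV_valuation_lt hc hϖ
      have hϖ0 : (ϖ : F) ≠ 0 := fun h0 => hϖ.ne_zero (Subtype.ext h0)
      obtain ⟨w, hwm, hw1⟩ : ∃ w : R.loc, w ∈ IsLocalRing.maximalIdeal R.loc ∧
          W.valuation w = 1 := by
        by_contra hcon
        push Not at hcon
        -- otherwise the maximal ideal would be principal
        have hall : ∀ w ∈ IsLocalRing.maximalIdeal R.loc, ϖ ∣ w := fun w hw => by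
          by_contra hn
          exact hcon w hw (R.primeV_valuation_eq_one hc hϖ hn)
        obtain ⟨hP, hxP, hyP⟩ := R.map_vert_isPrime hc
        set P := R.vert.map (algebraMap R.S R.loc)
        obtain ⟨e, he⟩ := hall R.xl (R.maximalIdeal_eq ▸ Ideal.subset_span (by simp))
        rw [he] at hxP
        rcases hP.mem_or_mem hxP with hϖP | heP
        · obtain ⟨e', he'⟩ := hall R.yl (R.maximalIdeal_eq ▸ Ideal.subset_span (by simp))
          exact hyP (he' ▸ P.mul_mem_right e' hϖP)
        · -- then `x = ϖ e` with `e` in the prime, so `e = x e₁` and `ϖ` is a unit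
          have heM : e ∈ IsLocalRing.maximalIdeal R.loc := IsLocalRing.le_maximalIdeal hP.ne_top heP
          rw [R.maximalIdeal_eq, Ideal.mem_span_pair] at heM
          obtain ⟨r, t, hrt⟩ := heM
          obtain ⟨e', he'⟩ := hall R.yl (R.maximalIdeal_eq ▸ Ideal.subset_span (by simp))
          have hxP' : R.xl ∈ P := he ▸ P.mul_mem_left ϖ heP
          have ht : t * R.yl ∈ P := by
            have := sub_mem heP (P.mul_mem_left r hxP')
            rwa [← hrt, add_sub_cancel_left] at this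
          have htP : t ∈ P := (hP.mem_or_mem ht).resolve_right hyP
          have hed : ϖ ∣ e := hall e (IsLocalRing.le_maximalIdeal hP.ne_top heP)
          -- so `P` consists of multiples of `ϖ ^ n` for all `n`
          have key : ∀ n : ℕ, ∀ z ∈ P, ϖ ^ n ∣ z := by
            intro n
            induction n with
            | zero => intro z _; simp
            | succ n ih =>
              intro z hz
              obtain ⟨z', rfl⟩ := hall z (IsLocalRing.le_maximalIdeal hP.ne_top hz)
              have : z' ∈ P := (hP.mem_or_mem hz).resolve_left fun h =>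
                  hyP (he' ▸ P.mul_mem_right e' h)
              rw [pow_succ']
              exact mul_dvd_mul_left ϖ (ih z' this)
          obtain ⟨n, x', hx', hxeq⟩ := WfDvdMonoid.max_power_factor
            (show R.xl ≠ 0 from fun h => R.x_ne (congrArg Subtype.val h)) hϖ.irreducible
          obtain ⟨g, hg⟩ := key (n + 1) R.xl hxP'
          refine hx' ⟨g, mul_left_cancel₀ (pow_ne_zero n hϖ.ne_zero) ?_⟩
          rw [← hxeq, hg, pow_succ]; ring
      obtain ⟨z, hz⟩ := hdiv W (fun z hz => R.loc_le_primeV hc hϖ hz) ⟨w, hwm, hw1⟩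
      have hz0 : z ≠ 0 := fun h => by
        rw [h, map_zero, zero_pow hm.ne'] at hz
        exact hf ((map_eq_zero _).mp hz)
      obtain ⟨a', b', hb', hab'⟩ := R.exists_frac_loc (z * b)
      have ha'0 : a' ≠ 0 := fun h => by
        rw [h, ZeroMemClass.coe_zero] at hab'
        exact mul_ne_zero (mul_ne_zero hz0 hb) hb' hab'
      obtain ⟨i₁, a₁, ha₁, hae⟩ := WfDvdMonoid.max_power_factor ha'0 hϖ.irreducible
      obtain ⟨j₁, b₁, hb₁, hbe⟩ := WfDvdMonoid.max_power_factor
        (show b' ≠ 0 from fun h => hb' (congrArg Subtype.val h)) hϖ.irreducible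
      have e1 : (c : F) * (b' : F) ^ m * z ^ m = f * (a' : F) ^ m := by
        rw [← hfc, ← hab', mul_pow, mul_pow]; ring
      have hv := congrArg W.valuation e1
      rw [heq, hae, hbe] at hv
      push_cast at hv
      simp only [map_mul, map_pow, W, R.primeV_valuation_eq_one hc hϖ hc',
        R.primeV_valuation_eq_one hc hϖ ha₁, R.primeV_valuation_eq_one hc hϖ hb₁, mul_one] at hv
      rw [← hz, mul_comm (_ * _) ((R.primeV hc hϖ).valuation f)] at hv
      have h2 := mul_left_cancel₀ (fun h0 => hf ((map_eq_zero _).mp h0)) hv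
      rw [← pow_mul, ← pow_mul, ← pow_add] at h2
      have h3 : i + j₁ * m = i₁ * m :=
        (pow_right_strictAnti₀ ((R.primeV hc hϖ).valuation.pos_iff.mpr hϖ0) hvϖ).injective h2
      exact (Nat.dvd_add_left (dvd_mul_left m j₁)).mp (h3 ▸ dvd_mul_left m i₁)
  refine ⟨u, (d : F) / b, hu, div_ne_zero (fun h => hc0 ?_) hb, ?_⟩
  · rw [hud, show d = 0 from Subtype.ext h, zero_pow hm.ne', mul_zero]
  · rw [div_pow, ← mul_div_assoc, eq_div_iff (pow_ne_zero m hb), hfc, hud]
    rfl

theorem valuation_eq_one_of_notMem_span (hc : R.Centred) {c : R.loc}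
    (h : c ∉ Ideal.span {R.xl}) : R.V.valuation c = 1 := by
  have := R.isNoetherian
  have hunit : ∀ u : R.loc, IsUnit u → R.V.valuation u = 1 := by
    intro u hu
    obtain ⟨a, s, hs, has⟩ := u.2
    have ha : a ∉ R.point := by
      intro ha
      have hm := (IsLocalization.AtPrime.to_map_mem_maximal_iff R.loc R.point a).mpr ha
      refine (IsLocalRing.mem_maximalIdeal _).mp hm ?_
      rw [show algebraMap R.S R.loc a = u * algebraMap R.S R.loc s from Subtype.ext has.symm]
      exact hu.mul (R.isUnit_of_notMem hs)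
    have h1 := congrArg R.V.valuation has
    rwa [map_mul, hc s hs, hc a ha, mul_one] at h1
  obtain ⟨n, u, hu, hd⟩ := exists_unit_mul_pow R.maximalIdeal_eq h
  obtain ⟨r, hr⟩ := Ideal.mem_span_singleton'.mp hd
  have hce : (c : F) = (u : F) * (R.y : F) ^ n + (r : F) * R.x := by
    have := congrArg Subtype.val hr
    push_cast at this
    change (r : F) * R.x = (c : F) - (u : F) * (R.y : F) ^ n at this
    linear_combination -this
  have h1 : R.V.valuation ((u : F) * (R.y : F) ^ n) = 1 := by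
    rw [map_mul, map_pow, hunit u hu, R.y_unit, one_pow, one_mul]
  have h2 : R.V.valuation ((r : F) * R.x) < 1 := by
    rw [map_mul]
    exact lt_of_le_of_lt (mul_le_of_le_one_left' ((R.V.valuation_le_one_iff _).mpr
      (R.loc_le_V r.2 hc))) R.x_lt
  rw [hce, R.V.valuation.map_add_eq_of_lt_left (h1.symm ▸ h2), h1]

variable {Lk : Type*} [Field Lk]

/-- The root of the residue on the component lifts to a unit of the local ring. -/
theorem exists_lift_root {m' : ℕ} (hc : R.Centred) (res : R.V →+* Lk)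
    (hres : ∀ z : R.V, res z = 0 ↔ R.V.valuation z < 1) {f h : F} {u : R.loc} (hu : IsUnit u)
    (hfu : f = u * h ^ m') (hm : 0 < m') (hf : R.V.valuation f = 1) {G : F} (hG : G ∈ R.V)
    (hgp : res ⟨G, hG⟩ ^ m' = res ⟨f, (R.V.valuation_le_one_iff _).mp hf.le⟩) :
    ∃ r : R.loc, IsUnit r ∧ ∀ (hrv : (r : F) * h ∈ R.V), res ⟨(r : F) * h, hrv⟩ = res ⟨G, hG⟩ := by
  have := R.ufm hc
  have := R.isNoetherian
  have hxp : Prime R.xl := by
    obtain ⟨hP, hxP, -⟩ := R.map_vert_isPrime hc
    rw [← Ideal.span_singleton_prime (show R.xl ≠ 0 from fun h => R.x_ne (congrArg Subtype.val h))]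
    refine ⟨fun h => hP.ne_top (eq_top_iff.mpr (h ▸ (Ideal.span_singleton_le_iff_mem _).mpr hxP)),
      fun {a b} hab => ?_⟩
    by_contra hne
    push Not at hne
    have h1 := R.valuation_eq_one_of_notMem_span hc hne.1
    have h2 := R.valuation_eq_one_of_notMem_span hc hne.2
    obtain ⟨r, hr⟩ := Ideal.mem_span_singleton'.mp hab
    have h3 := congrArg (fun w : R.loc => R.V.valuation (w : F)) hr
    push_cast at h3
    rw [map_mul, map_mul, h1, h2, one_mul] at h3
    have hlt : R.V.valuation (r : F) * R.V.valuation (R.xl : F) < 1 :=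
      lt_of_le_of_lt (mul_le_of_le_one_left' ((R.V.valuation_le_one_iff _).mpr
        (R.loc_le_V r.2 hc))) R.x_lt
    rw [h3] at hlt
    exact lt_irrefl _ hlt
  have hunit1 : ∀ {w : R.loc}, IsUnit w → R.V.valuation w = 1 := fun {w} hw =>
    R.valuation_eq_one_of_notMem_span hc fun hd =>
      hxp.not_isUnit (isUnit_of_dvd_unit (Ideal.mem_span_singleton.mp hd) hw)
  have hh : R.V.valuation h = 1 := by
    have := congrArg R.V.valuation hfu
    rw [map_mul, map_pow, hunit1 hu, one_mul, hf] at this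
    exact (pow_eq_one_iff_left hm.ne').mp this.symm
  have hG1 : R.V.valuation G = 1 := by
    refine le_antisymm ((R.V.valuation_le_one_iff _).mpr hG) (not_lt.mp fun hlt => ?_)
    have : res ⟨G, hG⟩ = 0 := (hres _).mpr hlt
    rw [this, zero_pow hm.ne', eq_comm, hres] at hgp
    exact absurd hgp (by simp only [hf]; exact lt_irrefl _)
  have hh0 : h ≠ 0 := fun h0 => by rw [h0, map_zero] at hh; exact zero_ne_one hh
  obtain ⟨a, b, hb, hab⟩ := R.exists_frac_loc (G / h)
  have ha : a ≠ 0 := fun h0 => by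
    rw [h0, ZeroMemClass.coe_zero, mul_eq_zero, div_eq_zero_iff] at hab
    rcases hab with (h1 | h1) | h1
    · rw [h1, map_zero] at hG1; exact zero_ne_one hG1
    · exact hh0 h1
    · exact hb h1
  obtain ⟨i, a₁, ha₁, rfl⟩ := WfDvdMonoid.max_power_factor ha hxp.irreducible
  obtain ⟨j, b₁, hb₁, rfl⟩ := WfDvdMonoid.max_power_factor
    (show b ≠ 0 from fun h0 => hb (congrArg Subtype.val h0)) hxp.irreducible
  have va₁ := R.valuation_eq_one_of_notMem_span hc (fun h0 => ha₁ (Ideal.mem_span_singleton.mp h0))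
  have vb₁ := R.valuation_eq_one_of_notMem_span hc (fun h0 => hb₁ (Ideal.mem_span_singleton.mp h0))
  have hvxne : (R.xl : F) ≠ 0 := R.x_ne
  have hij : i = j := by
    have h1 := congrArg R.V.valuation hab
    push_cast at h1
    rw [map_mul, map_mul, map_mul, map_div₀, map_pow, map_pow, hG1, hh, va₁, vb₁, div_one,
      one_mul, mul_one, mul_one] at h1
    exact ((pow_right_strictAnti₀ (R.V.valuation.pos_iff.mpr hvxne) R.x_lt).injective h1).symm
  subst hij
  have hab' : G / h * (b₁ : F) = a₁ := mul_left_cancel₀ (pow_ne_zero i hvxne) (by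
    push_cast at hab
    linear_combination hab)
  obtain ⟨n, ua, hua, hda⟩ := exists_unit_mul_pow R.maximalIdeal_eq
    (fun h0 => ha₁ (Ideal.mem_span_singleton.mp h0))
  obtain ⟨n', ub, hub, hdb⟩ := exists_unit_mul_pow R.maximalIdeal_eq
    (fun h0 => hb₁ (Ideal.mem_span_singleton.mp h0))
  -- the residue map restricted to the local ring
  let ρ : R.loc →+* Lk := res.comp
    (R.loc.subtype.codRestrict R.V.toSubring fun z => R.loc_le_V z.2 hc)
  have hρx : ∀ w ∈ Ideal.span {R.xl}, ρ w = 0 := by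
    intro w hw
    obtain ⟨r, rfl⟩ := Ideal.mem_span_singleton'.mp hw
    rw [map_mul]
    rw [show ρ R.xl = 0 from (hres _).mpr R.x_lt, mul_zero]
  have hρker : ∀ w : R.loc, ρ w = 0 → w ∈ Ideal.span {R.xl} := fun w hw => by
    by_contra hn
    exact (((hres _).mp hw).trans_eq (R.valuation_eq_one_of_notMem_span hc hn).symm).false
  have hρa : ρ a₁ = ρ ua * ρ R.yl ^ n := by
    rw [← map_pow, ← map_mul, ← sub_eq_zero, ← map_sub]; exact hρx _ hda
  have hρb : ρ b₁ = ρ ub * ρ R.yl ^ n' := by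
    rw [← map_pow, ← map_mul, ← sub_eq_zero, ← map_sub]; exact hρx _ hdb
  have hzV : G / h ∈ R.V := (R.V.valuation_le_one_iff _).mp (by rw [map_div₀, hG1, hh, div_one])
  have hhV : h ∈ R.V := (R.V.valuation_le_one_iff _).mp hh.le
  set z : R.V := ⟨G / h, hzV⟩ with hz
  have hzb : res z * ρ b₁ = ρ a₁ := by
    show res z * res _ = res _
    rw [← map_mul]; exact congrArg res (Subtype.ext hab')
  have hzG : res z * res ⟨h, hhV⟩ = res ⟨G, hG⟩ := by
    rw [← map_mul]; exact congrArg res (Subtype.ext (div_mul_cancel₀ G hh0))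
  have hzpow : res z ^ m' = ρ u := by
    have e : res ⟨f, (R.V.valuation_le_one_iff _).mp hf.le⟩ = ρ u * res ⟨h, hhV⟩ ^ m' := by
      show _ = res _ * _
      rw [← map_pow, ← map_mul]
      exact congrArg res (Subtype.ext hfu)
    rw [← hzG, mul_pow, e] at hgp
    refine mul_right_cancel₀ (pow_ne_zero m' fun h0 => ?_) hgp
    exact (((hres _).mp h0).trans_eq hh.symm).false
  have hyne : ρ R.yl ≠ 0 := fun h0 => (((hres _).mp h0).trans_eq R.y_unit.symm).false
  have hρu : ∀ {w : R.loc}, IsUnit w → ρ w ≠ 0 := fun hw => (hw.map ρ).ne_zero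
  have hn : n = n' := by
    have e : (res z * ρ b₁) ^ m' = ρ a₁ ^ m' := by rw [hzb]
    rw [mul_pow, hzpow, hρa, hρb, mul_pow, mul_pow, ← pow_mul, ← pow_mul] at e
    by_contra hne
    rcases lt_or_gt_of_ne hne with hlt | hgt
    · obtain ⟨d, hd⟩ := Nat.exists_eq_add_of_lt hlt
      subst hd
      have e2 : ρ (u * ub ^ m' * R.yl ^ ((d + 1) * m')) = ρ (ua ^ m') := by
        rw [map_mul, map_mul, map_pow, map_pow, map_pow]
        refine mul_right_cancel₀ (pow_ne_zero (n * m') hyne) ?_
        rw [mul_assoc, ← pow_add, show (d + 1) * m' + n * m' = (n + d + 1) * m' by ring]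
        linear_combination e
      rw [← sub_eq_zero, ← map_sub] at e2
      have hmem := Ideal.span_mono (by simp : ({R.xl} : Set R.loc) ⊆ {R.xl, R.yl}) (hρker _ e2)
      rw [← R.maximalIdeal_eq] at hmem
      have hy : R.yl ∈ IsLocalRing.maximalIdeal R.loc :=
          R.maximalIdeal_eq ▸ Ideal.subset_span (by simp)
      have h0 := Ideal.sub_mem _ (Ideal.mul_mem_left _ (u * ub ^ m')
        (Ideal.pow_mem_of_mem _ hy ((d + 1) * m') (Nat.mul_pos (Nat.succ_pos d) hm))) hmem
      rw [sub_sub_cancel] at h0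
      exact (IsLocalRing.mem_maximalIdeal _).mp h0 (hua.pow m')
    · obtain ⟨d, hd⟩ := Nat.exists_eq_add_of_lt hgt
      subst hd
      have e2 : ρ (ua ^ m' * R.yl ^ ((d + 1) * m')) = ρ (u * ub ^ m') := by
        rw [map_mul, map_mul, map_pow, map_pow, map_pow]
        refine mul_right_cancel₀ (pow_ne_zero (n' * m') hyne) ?_
        rw [mul_assoc, ← pow_add, show (d + 1) * m' + n' * m' = (n' + d + 1) * m' by ring]
        linear_combination -e
      rw [← sub_eq_zero, ← map_sub] at e2
      have hmem := Ideal.span_mono (by simp : ({R.xl} : Set R.loc) ⊆ {R.xl, R.yl}) (hρker _ e2)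
      rw [← R.maximalIdeal_eq] at hmem
      have hy : R.yl ∈ IsLocalRing.maximalIdeal R.loc :=
          R.maximalIdeal_eq ▸ Ideal.subset_span (by simp)
      have h0 := Ideal.sub_mem _ (Ideal.mul_mem_left _ (ua ^ m')
        (Ideal.pow_mem_of_mem _ hy ((d + 1) * m') (Nat.mul_pos (Nat.succ_pos d) hm))) hmem
      rw [sub_sub_cancel] at h0
      exact (IsLocalRing.mem_maximalIdeal _).mp h0 (hu.mul (hub.pow m'))
  subst hn
  obtain ⟨w, hw⟩ := hub.exists_right_inv
  refine ⟨ua * w, hua.mul (IsUnit.of_mul_eq_one_right ub hw), fun hrv => ?_⟩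
  rw [← hzG]
  have e : res z = ρ (ua * w) := by
    rw [hρa, hρb, ← mul_assoc] at hzb
    have h1 := mul_right_cancel₀ (pow_ne_zero n hyne) hzb
    rw [map_mul, ← h1, mul_assoc, ← map_mul, hw, map_one, mul_one]
  rw [e]
  show _ = res _ * _
  rw [← map_mul]
  rfl

end RegPoint

end FLTAgent.CarayolSquare
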