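import Fermat.Agent.CarayolSquare.UFD2
import Fermat.Agent.CarayolSquare.Comp
import Mathlib.RingTheory.Localization.AtPrime.Basic
import Mathlib.RingTheory.Localization.Submodule
import Mathlib.RingTheory.UniqueFactorizationDomain.GCDMonoid
import Mathlib.RingTheory.Polynomial.RationalRoot

/-!
# Regular points of a chart

`RegPoint` is a closed point of a chart at which the maximal ideal has two generators.  Its local
ring `loc` is factorial (`ufm`) and contains the normal chart (`B_le_loc`); `vert` is the component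
through the point.  Used in `PointPower` for powers up to units and gluing.
-/

set_option autoImplicit false

noncomputable section

namespace FLTAgent.CarayolSquare

variable {F : Type*} [Field F] {k : Type*} [Field k]

/-- A point `φ : B → k` of a chart `B ⊆ F` together with a subring `S` on which the kernel is
generated, locally, by `x` and `y`, and a place `V` containing `x` but not `y` in its maximal
ideal. -/
structure RegPoint (B : Subring F) (φ : B →+* k) where
  S : Subring F
  le : S ≤ B
  noeth : IsNoetherianRing S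
  frac : ∀ z : F, ∃ a s : S, (s : F) ≠ 0 ∧ z * s = a
  integral : ∀ b ∈ B, IsIntegral S b
  x : S
  y : S
  φ_x : φ (Subring.inclusion le x) = 0
  φ_y : φ (Subring.inclusion le y) = 0
  gen : ∀ z : S, φ (Subring.inclusion le z) = 0 →
    ∃ s : S, φ (Subring.inclusion le s) ≠ 0 ∧ ∃ a b : S, s * z = a * x + b * y
  V : ValuationSubring F
  le_V : ∀ b ∈ B, b ∈ V
  x_ne : (x : F) ≠ 0
  x_lt : V.valuation x < 1
  y_unit : V.valuation y = 1

namespace RegPoint

variable {B : Subring F} {φ : B →+* k} (R : RegPoint B φ)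

/-- The restriction of `φ` to `S`. -/
def ψ : R.S →+* k := φ.comp (Subring.inclusion R.le)

/-- The kernel of `φ` on `S`. -/
def point : Ideal R.S := RingHom.ker R.ψ

instance point_isPrime : R.point.IsPrime := RingHom.ker_isPrime _

theorem notMem_point {s : R.S} : s ∉ R.point ↔ R.ψ s ≠ 0 := Iff.rfl

theorem coe_ne_zero {s : R.S} (hs : s ∉ R.point) : (s : F) ≠ 0 := fun h => hs (by
  rw [show s = 0 from Subtype.ext h]; exact zero_mem _)

/-- The local ring of `S` at the point, inside `F`. -/
def loc : Subring F where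
  carrier := {z | ∃ a s : R.S, s ∉ R.point ∧ z * s = a}
  one_mem' := ⟨1, 1, by rw [R.notMem_point, map_one]; exact one_ne_zero, by simp⟩
  zero_mem' := ⟨0, 1, by rw [R.notMem_point, map_one]; exact one_ne_zero, by simp⟩
  mul_mem' := by
    rintro z w ⟨a, s, hs, h⟩ ⟨b, t, ht, h'⟩
    refine ⟨a * b, s * t, fun hst => (R.point_isPrime.mem_or_mem hst).elim hs ht, ?_⟩
    push_cast
    linear_combination (w * t) * h + (a : F) * h'
  add_mem' := by
    rintro z w ⟨a, s, hs, h⟩ ⟨b, t, ht, h'⟩
    refine ⟨a * t + b * s, s * t, fun hst => (R.point_isPrime.mem_or_mem hst).elim hs ht, ?_⟩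
    push_cast
    linear_combination (t : F) * h + (s : F) * h'
  neg_mem' := by
    rintro z ⟨a, s, hs, h⟩
    refine ⟨-a, s, hs, ?_⟩
    push_cast
    linear_combination -h

theorem mem_loc_of_mem {a : F} (ha : a ∈ R.S) : a ∈ R.loc :=
  ⟨⟨a, ha⟩, 1, by rw [R.notMem_point, map_one]; exact one_ne_zero, by simp⟩

instance : Algebra R.S R.loc :=
  (Subring.inclusion fun _ h => R.mem_loc_of_mem h).toAlgebra

theorem coe_algebraMap (a : R.S) : ((algebraMap R.S R.loc a : R.loc) : F) = a := rfl

instance isLocalization : IsLocalization.AtPrime R.loc R.point where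
  map_units := fun ⟨s, hs⟩ => by
    have hs' : s ∉ R.point := hs
    refine IsUnit.of_mul_eq_one ⟨(s : F)⁻¹, 1, s, hs', ?_⟩ (Subtype.ext ?_)
    · rw [inv_mul_cancel₀ (R.coe_ne_zero hs')]; rfl
    · show (s : F) * (s : F)⁻¹ = 1
      exact mul_inv_cancel₀ (R.coe_ne_zero hs')
  surj := fun ⟨z, a, s, hs, h⟩ => ⟨⟨a, ⟨s, hs⟩⟩, Subtype.ext h⟩
  exists_of_eq := fun {a b} h => ⟨1, by
    have : a = b := Subtype.ext (congrArg (fun w : R.loc => (w : F)) h :)
    rw [this]⟩

instance : IsLocalRing R.loc := IsLocalization.AtPrime.isLocalRing R.loc R.point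

theorem isUnit_of_notMem {s : R.S} (hs : s ∉ R.point) : IsUnit (algebraMap R.S R.loc s) :=
  IsLocalization.map_units R.loc (⟨s, hs⟩ : R.point.primeCompl)

theorem isNoetherian : IsNoetherianRing R.loc :=
  haveI := R.noeth
  IsLocalization.isNoetherianRing R.point.primeCompl R.loc inferInstance

/-- The generators in the local ring. -/
def xl : R.loc := algebraMap R.S R.loc R.x

/-- The generators in the local ring. -/
def yl : R.loc := algebraMap R.S R.loc R.y

theorem maximalIdeal_eq : IsLocalRing.maximalIdeal R.loc = Ideal.span {R.xl, R.yl} := by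
  refine le_antisymm (fun z hz => ?_) ?_
  · obtain ⟨⟨a, ⟨s, hs⟩⟩, h⟩ := IsLocalization.surj R.point.primeCompl z
    have hu := R.isUnit_of_notMem hs
    have ha : a ∈ R.point := by
      by_contra hna
      refine (IsLocalRing.mem_maximalIdeal z).mp hz ?_
      have := R.isUnit_of_notMem hna
      rw [← h] at this
      exact (IsUnit.mul_iff.mp this).1
    obtain ⟨t, ht, b, c, htc⟩ := R.gen a ha
    have htu := R.isUnit_of_notMem (s := t) ht
    have h1 : algebraMap R.S R.loc t * algebraMap R.S R.loc s * z ∈ Ideal.span {R.xl, R.yl} := by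
      rw [mul_assoc, mul_comm (algebraMap R.S R.loc s) z, h, ← map_mul, htc, map_add, map_mul,
        map_mul, Ideal.mem_span_pair]
      exact ⟨_, _, rfl⟩
    exact (Ideal.unit_mul_mem_iff_mem _ (htu.mul hu)).mp h1
  · have hmem : ∀ w : R.S, w ∈ R.point → algebraMap R.S R.loc w ∈ IsLocalRing.maximalIdeal R.loc :=
      fun w hw => (IsLocalization.AtPrime.to_map_mem_maximal_iff R.loc R.point w).mpr hw
    rw [Ideal.span_le]
    rintro w (rfl | rfl)
    · exact hmem _ R.φ_x
    · exact hmem _ R.φ_y

theorem loc_le_V {z : F} (hz : z ∈ R.loc) (hunit : ∀ s : R.S, s ∉ R.point → R.V.valuation s = 1) :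
    z ∈ R.V := by
  obtain ⟨a, s, hs, h⟩ := hz
  rw [← R.V.valuation_le_one_iff]
  have h1 := congrArg R.V.valuation h
  rw [map_mul, hunit s hs, mul_one] at h1
  rw [h1, R.V.valuation_le_one_iff]
  exact R.le_V _ (R.le a.2)

/-- The prime of `S` defined by the place. -/
def vert : Ideal R.S where
  carrier := {s | R.V.valuation s < 1}
  zero_mem' := by simp
  add_mem' := fun {a b} ha hb => (R.V.valuation.map_add (a : F) b).trans_lt (max_lt ha hb)
  smul_mem' := fun c a ha => by
    show R.V.valuation ((c : F) * a) < 1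
    rw [map_mul]
    exact lt_of_le_of_lt (mul_le_of_le_one_left' ((R.V.valuation_le_one_iff _).mpr
      (R.le_V _ (R.le c.2)))) ha

instance vert_isPrime : R.vert.IsPrime := by
  refine ⟨fun h => ?_, fun {a b} hab => ?_⟩
  · have : R.V.valuation ((1 : R.S) : F) < 1 := (Ideal.eq_top_iff_one _).mp h
    simp at this
  · by_contra hne
    push Not at hne
    have ha : R.V.valuation (a : F) = 1 :=
      le_antisymm ((R.V.valuation_le_one_iff _).mpr (R.le_V _ (R.le a.2))) (not_lt.mp hne.1)
    have hb : R.V.valuation (b : F) = 1 :=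
      le_antisymm ((R.V.valuation_le_one_iff _).mpr (R.le_V _ (R.le b.2))) (not_lt.mp hne.2)
    have hab' : R.V.valuation ((a : F) * b) < 1 := hab
    rw [map_mul, ha, hb, mul_one] at hab'
    exact lt_irrefl _ hab'

theorem x_mem_vert : R.x ∈ R.vert := R.x_lt

theorem y_notMem_vert : R.y ∉ R.vert := fun h =>
    (R.y_unit ▸ (show R.V.valuation (R.y : F) < 1 from h)).false

theorem vert_le_point (hmax : ∀ s : R.S, s ∉ R.point → R.V.valuation s = 1) : R.vert ≤ R.point :=
  fun s hs => by
    by_contra hne
    have h : R.V.valuation (s : F) < 1 := hs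
    rw [hmax s hne] at h
    exact lt_irrefl _ h

/-- The place sees the complement of the point as units. -/
def Centred : Prop := ∀ s : R.S, s ∉ R.point → R.V.valuation s = 1

theorem map_vert_isPrime (hc : R.Centred) :
    (R.vert.map (algebraMap R.S R.loc)).IsPrime ∧
      R.xl ∈ R.vert.map (algebraMap R.S R.loc) ∧ R.yl ∉ R.vert.map (algebraMap R.S R.loc) := by
  have hd : Disjoint (R.point.primeCompl : Set R.S) (R.vert : Set R.S) :=
    Set.disjoint_left.mpr fun s hs hs' => hs (R.vert_le_point hc hs')
  refine ⟨IsLocalization.isPrime_of_isPrime_disjoint R.point.primeCompl R.loc R.vert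
    R.vert_isPrime hd, Ideal.mem_map_of_mem _ R.x_mem_vert, fun h => R.y_notMem_vert ?_⟩
  rw [← IsLocalization.under_map_of_isPrime_disjoint R.point.primeCompl R.loc R.vert_isPrime hd]
  exact h

/-- The local ring is factorial. -/
theorem ufm (hc : R.Centred) : UniqueFactorizationMonoid R.loc := by
  obtain ⟨hp, hx, hy⟩ := R.map_vert_isPrime hc
  have := R.isNoetherian
  exact uniqueFactorizationMonoid_of_span_pair R.maximalIdeal_eq
    (fun h => R.x_ne (congrArg Subtype.val h)) _ hx hy

/-- The chart lies in the local ring. -/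
theorem B_le_loc (hc : R.Centred) : B ≤ R.loc := by
  have := R.ufm hc
  have : FaithfulSMul R.loc F :=
    (faithfulSMul_iff_algebraMap_injective R.loc F).mpr Subtype.val_injective
  have : IsFractionRing R.loc F := by
    refine IsFractionRing.of_field R.loc F fun z => ?_
    obtain ⟨a, s, hs, h⟩ := R.frac z
    refine ⟨⟨a, R.mem_loc_of_mem a.2⟩, ⟨s, R.mem_loc_of_mem s.2⟩, ?_⟩
    show z = (a : F) / (s : F)
    rw [← h, mul_div_cancel_right₀ z hs]
  intro b hb
  obtain ⟨P, hP, hPb⟩ := R.integral b hb
  have hi : IsIntegral R.loc b := ⟨P.map (algebraMap R.S R.loc), hP.map _, by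
    rw [Polynomial.eval₂_map]; exact hPb⟩
  obtain ⟨w, hw⟩ := IsIntegrallyClosed.isIntegral_iff.mp hi
  rw [← hw]
  exact w.2

end RegPoint

end FLTAgent.CarayolSquare
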