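import Mathlib.RingTheory.UniqueFactorizationDomain.Kaplansky
import Mathlib.RingTheory.Filtration
import Mathlib.RingTheory.Nakayama
import Mathlib.RingTheory.Ideal.Span
import Mathlib.RingTheory.LocalRing.Basic
import Mathlib.RingTheory.Jacobson.Ideal
import Mathlib.Tactic.LinearCombination
import Mathlib.Tactic.Ring

/-!
# Local domains with two generators

`uniqueFactorizationMonoid_of_span_pair`: a Noetherian local domain whose maximal ideal is
generated by two elements `x, y`, such that some prime contains `x` but not `y`, is a unique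
factorisation domain.  Used for regular points.
-/

set_option autoImplicit false

namespace FLTAgent.CarayolSquare

variable {R : Type*} [CommRing R] [IsLocalRing R] [IsNoetherianRing R]

theorem exists_unit_mul_pow {x y : R} (hm : IsLocalRing.maximalIdeal R = Ideal.span {x, y}) {z : R}
    (hz : z ∉ Ideal.span {x}) :
    ∃ (n : ℕ) (u : R), IsUnit u ∧ z - u * y ^ n ∈ Ideal.span {x} := by
  classical
  by_cases hx1 : Ideal.span ({x} : Set R) = ⊤
  · exact absurd (hx1 ▸ Submodule.mem_top) hz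
  have hlt : ∃ n, z ∉ Ideal.span {x} ⊔ Ideal.span {y ^ n} := by
    by_contra hcon
    push Not at hcon
    let I : Ideal R := Ideal.span {x}
    have : Nontrivial (R ⧸ I) := Ideal.Quotient.nontrivial_iff.mpr hx1
    have : IsLocalRing (R ⧸ I) :=
      IsLocalRing.of_surjective' (Ideal.Quotient.mk I) Ideal.Quotient.mk_surjective
    have hy : Ideal.span {Ideal.Quotient.mk I y} ≠ ⊤ := by
      rw [Ne, Ideal.span_singleton_eq_top]
      intro hu
      obtain ⟨w, hw⟩ := hu.exists_right_inv
      obtain ⟨w, rfl⟩ := Ideal.Quotient.mk_surjective w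
      rw [← map_mul, ← map_one (Ideal.Quotient.mk I), Ideal.Quotient.eq,
        Ideal.mem_span_singleton] at hw
      obtain ⟨c, hc⟩ := hw
      have h1 : (1 : R) ∈ IsLocalRing.maximalIdeal R := by
        rw [hm, Ideal.mem_span_pair]
        exact ⟨-c, w, by linear_combination hc⟩
      exact (IsLocalRing.mem_maximalIdeal _).mp h1 isUnit_one
    have : IsNoetherianRing (R ⧸ I) :=
      isNoetherianRing_of_surjective R (R ⧸ I) (Ideal.Quotient.mk I) Ideal.Quotient.mk_surjective
    have h0 : Ideal.Quotient.mk I z = 0 := by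
      rw [← Ideal.mem_bot, ← Ideal.iInf_pow_eq_bot_of_isLocalRing _ hy, Ideal.mem_iInf]
      intro n
      obtain ⟨a, ha, b, hb, hab⟩ := Submodule.mem_sup.mp (hcon n)
      obtain ⟨c, rfl⟩ := Ideal.mem_span_singleton'.mp hb
      rw [Ideal.span_singleton_pow, ← hab, map_add, Ideal.Quotient.eq_zero_iff_mem.mpr ha,
        zero_add, map_mul, map_pow]
      exact Ideal.mem_span_singleton'.mpr ⟨_, rfl⟩
    exact hz (Ideal.Quotient.eq_zero_iff_mem.mp h0)
  obtain ⟨n, hn, hmin⟩ : ∃ n, z ∉ Ideal.span {x} ⊔ Ideal.span {y ^ n} ∧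
      ∀ k < n, z ∈ Ideal.span {x} ⊔ Ideal.span {y ^ k} :=
    ⟨Nat.find hlt, Nat.find_spec hlt, fun k hk => not_not.mp (Nat.find_min hlt hk)⟩
  obtain ⟨k, rfl⟩ : ∃ k, n = k + 1 := by
    cases n with
    | zero => simp at hn
    | succ k => exact ⟨k, rfl⟩
  have h := hmin k k.lt_succ_self
  rw [← Ideal.span_insert, Ideal.mem_span_pair] at h
  obtain ⟨a, b, hab⟩ := h
  have hb : IsUnit b := by
    by_contra hb
    apply hn
    have hb' : b ∈ IsLocalRing.maximalIdeal R := (IsLocalRing.mem_maximalIdeal _).mpr hb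
    rw [hm, Ideal.mem_span_pair] at hb'
    obtain ⟨c, d, rfl⟩ := hb'
    rw [← Ideal.span_insert, Ideal.mem_span_pair]
    exact ⟨a + c * y ^ k, d, by rw [← hab]; ring⟩
  exact ⟨k, b, hb, Ideal.mem_span_singleton'.mpr ⟨a, by linear_combination hab⟩⟩

/-- A two dimensional regular local domain, in elementary terms, is factorial. -/
theorem uniqueFactorizationMonoid_of_span_pair [IsDomain R] {x y : R}
    (hm : IsLocalRing.maximalIdeal R = Ideal.span {x, y}) (hx0 : x ≠ 0)
    (Q : Ideal R) [Q.IsPrime] (hxQ : x ∈ Q) (hyQ : y ∉ Q) : UniqueFactorizationMonoid R := by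
  classical
  have hxI : Ideal.span {x} ≤ Q := (Ideal.span_singleton_le_iff_mem _).mpr hxQ
  have hnx : ∀ (u : R) (n : ℕ), IsUnit u → u * y ^ n ∉ Ideal.span {x} := fun u n hu h => by
    rcases ‹Q.IsPrime›.mem_or_mem (hxI h) with h | h
    · exact ‹Q.IsPrime›.ne_top (Ideal.eq_top_of_isUnit_mem _ h hu)
    · exact hyQ (‹Q.IsPrime›.mem_of_pow_mem n h)
  have hxp : Prime x := by
    rw [← Ideal.span_singleton_prime hx0]
    refine ⟨fun h => ‹Q.IsPrime›.ne_top (eq_top_iff.mpr (h ▸ hxI)), fun {a b} hab => ?_⟩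
    by_contra hne
    push Not at hne
    obtain ⟨i, u, hu, hiu⟩ := exists_unit_mul_pow hm hne.1
    obtain ⟨j, v, hv, hjv⟩ := exists_unit_mul_pow hm hne.2
    refine hnx (u * v) (i + j) (hu.mul hv) ?_
    have h1 : (a - u * y ^ i) * b + u * y ^ i * (b - v * y ^ j) ∈ Ideal.span {x} :=
      add_mem (Ideal.mul_mem_right _ _ hiu) (Ideal.mul_mem_left _ _ hjv)
    have := sub_mem hab h1
    convert this using 1
    ring
  rw [UniqueFactorizationMonoid.iff_exists_prime_mem_of_isPrime]
  intro P hP0 hP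
  by_cases hxP : x ∈ P
  · exact ⟨x, hxP, hxp⟩
  have hcap : ∀ w ∈ P, w ∈ Ideal.span {x} → w ∈ Ideal.span {x} * P := by
    intro w hwP hwx
    obtain ⟨r, rfl⟩ := Ideal.mem_span_singleton'.mp hwx
    rw [mul_comm r x]
    exact Ideal.mul_mem_mul (Ideal.mem_span_singleton_self x)
      ((hP.mem_or_mem hwP).resolve_right hxP)
  have hjac : Ideal.span {x} ≤ Ideal.jacobson ⊥ :=
    le_trans ((Ideal.span_singleton_le_iff_mem _).mpr (hm ▸ Ideal.subset_span (Set.mem_insert x _)))
      (IsLocalRing.maximalIdeal_le_jacobson ⊥)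
  have hnot : ∃ n, ∃ z ∈ P, ∃ u, IsUnit u ∧ z - u * y ^ n ∈ Ideal.span {x} := by
    by_contra hcon
    push Not at hcon
    refine hP0 (Submodule.eq_bot_of_le_smul_of_le_jacobson_bot _ P
      (IsNoetherian.noetherian P) (fun w hw => ?_) hjac)
    refine hcap w hw ?_
    by_contra hwx
    obtain ⟨n, u, hu, h⟩ := exists_unit_mul_pow hm hwx
    exact hcon n w hw u hu h
  obtain ⟨z, hzP, u, hu, hzu⟩ := Nat.find_spec hnot
  have hz0 : z ∉ Ideal.span {x} := fun h => by
    refine hnx u (Nat.find hnot) hu ?_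
    simpa using sub_mem h hzu
  have hPle : P ≤ Ideal.span {z} ⊔ Ideal.span {x} • P := by
    intro w hw
    by_cases hwx : w ∈ Ideal.span {x}
    · exact Submodule.mem_sup_right (hcap w hw hwx)
    obtain ⟨k, v, hv, hwv⟩ := exists_unit_mul_pow hm hwx
    obtain ⟨d, hd⟩ := Nat.exists_eq_add_of_le (Nat.find_min' hnot ⟨w, hw, v, hv, hwv⟩)
    obtain ⟨u', hu'⟩ := hu.exists_right_inv
    set c := v * u' * y ^ d with hc
    have hdiff : w - c * z ∈ Ideal.span {x} := by
      have := sub_mem hwv (Ideal.mul_mem_left _ c hzu)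
      have e : v * y ^ k - c * (u * y ^ Nat.find hnot) = 0 := by
        rw [hc, hd, pow_add]
        linear_combination -(v * y ^ Nat.find hnot * y ^ d) * hu'
      convert this using 1
      linear_combination e
    rw [show w = c * z + (w - c * z) by ring]
    exact Submodule.add_mem_sup (Ideal.mem_span_singleton'.mpr ⟨c, rfl⟩)
      (hcap _ (sub_mem hw (P.mul_mem_left c hzP)) hdiff)
  have hPeq : P = Ideal.span {z} := le_antisymm
    (Submodule.le_of_le_smul_of_le_jacobson_bot (IsNoetherian.noetherian P) hjac hPle)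
    ((Ideal.span_singleton_le_iff_mem _).mpr hzP)
  have hzne : z ≠ 0 := fun h => hz0 (h ▸ zero_mem _)
  exact ⟨z, hzP, (Ideal.span_singleton_prime hzne).mp (hPeq ▸ hP)⟩

end FLTAgent.CarayolSquare
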