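import Fermat.Agent.CarayolSquare.Comp
import Mathlib.Algebra.Polynomial.Div

/-!
# Values at roots of polynomials modulo `X ^ m - f`

Values at the `m`-th roots of `f` of polynomials over `F`: coefficients `cf`, residues `phi`, and
the radical `InRad` of the ideal of `π`.  Used for the cyclic covers in `CarayolSquare.Cover`.
-/

set_option autoImplicit false

noncomputable section

namespace FLTAgent.CarayolSquare

open Polynomial

variable {O F E Lk : Type*} [CommRing O] [IsDomain O] [Field F] [Field E] [Field Lk]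
  [Algebra O F] [Algebra O E] [Algebra F E] [IsScalarTower O F E]

/-- Coefficients of the reduction modulo `X ^ m - f`. -/
def cf (f : F) (m : ℕ) (P : F[X]) (j : ℕ) : F := (P %ₘ (X ^ m - C f)).coeff j

/-- A polynomial with given coefficients below `m`. -/
def ofCoeffs (m : ℕ) (c : ℕ → F) : F[X] := ∑ j ∈ Finset.range m, C (c j) * X ^ j

variable {f : F} {m : ℕ}

theorem natDegree_modByMonic_X_pow_sub_C_lt (hm : 0 < m) (P : F[X]) :
    (P %ₘ (X ^ m - C f)).natDegree < m := by
  have h := natDegree_modByMonic_lt P (monic_X_pow_sub_C f hm.ne') (fun h => by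
    have := congrArg natDegree h
    rw [natDegree_X_pow_sub_C, natDegree_one] at this
    omega)
  rwa [natDegree_X_pow_sub_C] at h

theorem aeval_eq_sum_cf (hm : 0 < m) {β : E} (hβ : β ^ m = algebraMap F E f) (P : F[X]) :
    aeval β P = ∑ j ∈ Finset.range m, algebraMap F E (cf f m P j) * β ^ j := by
  conv_lhs => rw [← modByMonic_add_div P (X ^ m - C f)]
  rw [map_add, map_mul, show aeval β (X ^ m - C f : F[X]) = 0 by simp [hβ], zero_mul, add_zero,
    aeval_def, eval₂_eq_sum_range' _ (natDegree_modByMonic_X_pow_sub_C_lt hm P)]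
  rfl

theorem cf_sub (P Q : F[X]) (j : ℕ) : cf f m (P - Q) j = cf f m P j - cf f m Q j := by
  rw [cf, sub_modByMonic, coeff_sub]; rfl

theorem cf_C_mul (a : F) (P : F[X]) (j : ℕ) : cf f m (C a * P) j = a * cf f m P j := by
  rw [cf, C_mul', smul_modByMonic, coeff_smul, smul_eq_mul]; rfl

theorem cf_ofCoeffs (c : ℕ → F) {j : ℕ} (hj : j < m) : cf f m (ofCoeffs m c) j = c j := by
  have hdeg : (ofCoeffs m c).degree < (X ^ m - C f).degree := by
    rw [degree_X_pow_sub_C (by omega : 0 < m)]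
    refine (degree_sum_le _ _).trans_lt ((Finset.sup_lt_iff (WithBot.bot_lt_coe m)).mpr ?_)
    intro i hi
    exact (degree_C_mul_X_pow_le i (c i)).trans_lt
      (WithBot.coe_lt_coe.mpr (Finset.mem_range.mp hi))
  rw [cf, (modByMonic_eq_self_iff (monic_X_pow_sub_C f (by omega))).mpr hdeg, ofCoeffs,
    finsetSum_coeff]
  simp [coeff_X_pow, hj]

/-- Multiples of `π` in a subring, up to radical. -/
def radIdeal (π : O) (s : Set E) : Ideal (intSet O s) :=
  (Ideal.span {(⟨algebraMap O E π, algebraMap_mem_intSet s π⟩ : intSet O s)}).radical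

/-- `x` lies in the chart ring and is nilpotent modulo `π`. -/
def InRad (π : O) (s : Set E) (x : E) : Prop :=
  ∃ h : x ∈ intSet O s, (⟨x, h⟩ : intSet O s) ∈ radIdeal π s

omit [IsDomain O] in
theorem InRad.add {π : O} {s : Set E} {x y : E} (hx : InRad π s x) (hy : InRad π s y) :
    InRad π s (x + y) :=
  ⟨add_mem hx.1 hy.1, (radIdeal π s).add_mem hx.2 hy.2⟩

omit [IsDomain O] in
theorem InRad.sub {π : O} {s : Set E} {x y : E} (hx : InRad π s x) (hy : InRad π s y) :
    InRad π s (x - y) :=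
  ⟨sub_mem hx.1 hy.1, (radIdeal π s).sub_mem hx.2 hy.2⟩

omit [IsDomain O] in
theorem InRad.mul_left {π : O} {s : Set E} {x y : E} (hx : x ∈ intSet O s) (hy : InRad π s y) :
    InRad π s (x * y) :=
  ⟨mul_mem hx hy.1, (radIdeal π s).mul_mem_left ⟨x, hx⟩ hy.2⟩

omit [IsDomain O] in
theorem inRad_pi_mul {π : O} {s : Set E} {x : E} (hx : x ∈ intSet O s) :
    InRad π s (algebraMap O E π * x) :=
  ⟨mul_mem (algebraMap_mem_intSet s π) hx,
    Ideal.le_radical (Ideal.mem_span_singleton'.mpr ⟨⟨x, hx⟩, Subtype.ext (mul_comm _ _)⟩)⟩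

omit [IsDomain O] in
theorem InRad.exists_pow {π : O} {s : Set E} {x : E} (h : InRad π s x) :
    ∃ (n : ℕ), ∃ w ∈ intSet O s, x ^ n = algebraMap O E π * w := by
  obtain ⟨hx, n, hn⟩ := h
  obtain ⟨w, hw⟩ := Ideal.mem_span_singleton'.mp hn
  exact ⟨n, w, w.2, by rw [mul_comm]; exact (congrArg Subtype.val hw).symm⟩

omit [IsDomain O] in
theorem inRad_of_pow {π : O} {s : Set E} {x : E} (hx : x ∈ intSet O s) {n : ℕ} {w : E}
    (hw : w ∈ intSet O s) (h : x ^ n = algebraMap O E π * w) : InRad π s x := by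
  refine ⟨hx, n, Ideal.mem_span_singleton'.mpr ⟨⟨w, hw⟩, Subtype.ext ?_⟩⟩
  rw [Subring.coe_mul, Subring.coe_pow, h, mul_comm]

omit [IsDomain O] in
theorem inRad_finset_sum {π : O} {s : Set E} {α : Type*} (A : Finset α) (v : α → E)
    (h : ∀ a ∈ A, InRad π s (v a)) : InRad π s (∑ a ∈ A, v a) := by
  classical
  induction A using Finset.induction_on with
  | empty => rw [Finset.sum_empty]; exact ⟨zero_mem _, (radIdeal π s).zero_mem⟩
  | insert a A ha ih =>
    rw [Finset.sum_insert ha]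
    exact (h a (Finset.mem_insert_self a A)).add (ih fun b hb => h b (Finset.mem_insert_of_mem hb))

variable {ζ : O} {β₀ : E}

/-- The roots `ζ ^ l β₀`. -/
def rootAt (ζ : O) (β₀ : E) (l : ℕ) : E := algebraMap O E ζ ^ l * β₀

omit [IsDomain O] [Algebra O F] [IsScalarTower O F E] in
theorem rootAt_pow (hζ : IsPrimitiveRoot ζ m) (hβ₀ : β₀ ^ m = algebraMap F E f) (l : ℕ) :
    rootAt ζ β₀ l ^ m = algebraMap F E f := by
  rw [rootAt, mul_pow, ← pow_mul, mul_comm l m, pow_mul, ← map_pow, hζ.pow_eq_one, map_one,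
    one_pow, one_mul, hβ₀]

omit [IsDomain O] in
theorem isUnit_natCast_map {R : Type*} [CommRing R] (ψ : O →+* R) (hm : IsUnit (m : O)) :
    IsUnit (m : R) := by
  have := hm.map ψ
  rwa [map_natCast] at this

omit [Algebra O F] [IsScalarTower O F E] in
/-- Values in a chart give coefficients in its pieces. -/
theorem cf_mem_of_values {s : Set F} (hm : 0 < m) (hmu : IsUnit (m : O))
    (hζ : IsPrimitiveRoot ζ m) (hβ₀ : β₀ ^ m = algebraMap F E f) {P : F[X]}
    (hP : ∀ l < m, aeval (rootAt ζ β₀ l) P ∈ intSet O (algebraMap F E '' s)) {j : ℕ} (hj : j < m) :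
    cf f m P j ^ m * f ^ j ∈ chartF O E s := by
  obtain ⟨μ, hμ⟩ := hmu.exists_right_inv
  have h1 := extract_coeff (algebraMap O E) hζ (fun i => algebraMap F E (cf f m P i)) β₀ hj
  have h2 : (m : E) * (algebraMap F E (cf f m P j) * β₀ ^ j) ∈
      intSet O (algebraMap F E '' s) := by
    rw [← h1]
    refine sum_mem fun l hl => mul_mem (pow_mem (pow_mem (algebraMap_mem_intSet _ _) _) _) ?_
    have := hP l (Finset.mem_range.mp hl)
    rw [aeval_eq_sum_cf hm (rootAt_pow hζ hβ₀ l)] at this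
    exact this
  have h3 : algebraMap F E (cf f m P j) * β₀ ^ j ∈ intSet O (algebraMap F E '' s) := by
    have e : algebraMap O E μ * (m : E) = 1 := by
      rw [← map_natCast (algebraMap O E), ← map_mul, mul_comm, hμ, map_one]
    have := mul_mem (algebraMap_mem_intSet (algebraMap F E '' s) μ) h2
    rwa [← mul_assoc, e, one_mul] at this
  show algebraMap F E (_ * _) ∈ intSet O _
  have e : algebraMap F E (cf f m P j ^ m * f ^ j) =
      (algebraMap F E (cf f m P j) * β₀ ^ j) ^ m := by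
    rw [map_mul, map_pow, map_pow, ← hβ₀, mul_pow, ← pow_mul, ← pow_mul, mul_comm j m]
  rw [e]
  exact pow_mem h3 m

omit [IsDomain O] [Algebra O F] [IsScalarTower O F E] in
/-- Coefficients in pieces give values in a chart. -/
theorem monomial_mem {s : Set F} (hm : 0 < m) {β : E} (hβ : β ^ m = algebraMap F E f) {c : F}
    {j : ℕ} (hc : c ^ m * f ^ j ∈ chartF O E s) :
    algebraMap F E c * β ^ j ∈ intSet O (algebraMap F E '' s) := by
  refine mem_intSet_of_pow hm ?_
  have e : algebraMap F E (c ^ m * f ^ j) = (algebraMap F E c * β ^ j) ^ m := by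
    rw [map_mul, map_pow, map_pow, ← hβ, mul_pow, ← pow_mul, ← pow_mul, mul_comm j m]
  rw [← e]
  exact hc

namespace CompData

variable {π : O} {u : F} (D : CompData O F Lk π u f m)

/-- The evaluation on the component `p` at the root `ζ ^ l g`. -/
def phi (ζ : O) (p : D.ι) (l : ℕ) (P : F[X]) : Lk :=
  ∑ j ∈ Finset.range m, D.resT p (cf f m P j) * (D.resO p ζ ^ l * D.g p) ^ j

omit [IsDomain O] in
theorem phi_map (hm : 0 < m) (hζ : IsPrimitiveRoot ζ m) (p : D.ι) (l : ℕ) (Q : (D.V p)[X]) :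
    D.phi ζ p l (Q.map (D.V p).subtype) = eval₂ (D.res p) (D.resO p ζ ^ l * D.g p) Q := by
  set b := D.resO p ζ ^ l * D.g p
  let M : (D.V p)[X] := X ^ m - C ⟨f, D.f_mem p⟩
  have hM : M.Monic := monic_X_pow_sub_C _ hm.ne'
  have hmap : M.map (D.V p).subtype = X ^ m - C f := by
    simp only [M, Polynomial.map_sub, Polynomial.map_pow, map_X, map_C]; rfl
  have hb : b ^ m = D.res p ⟨f, D.f_mem p⟩ := by
    rw [mul_pow, ← pow_mul, mul_comm l m, pow_mul, ← map_pow, hζ.pow_eq_one, map_one, one_pow,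
      one_mul, D.g_pow]
  conv_rhs => rw [← modByMonic_add_div Q M]
  rw [eval₂_add, eval₂_mul, show eval₂ (D.res p) b M = 0 by simp [M, hb], zero_mul, add_zero]
  have hco : ∀ j, cf f m (Q.map (D.V p).subtype) j = ((Q %ₘ M).coeff j : F) := by
    intro j
    rw [cf, ← hmap, ← map_modByMonic _ hM, coeff_map]
    rfl
  have hlt : (Q %ₘ M).natDegree < m := by
    rw [← natDegree_map_eq_of_injective (f := (D.V p).subtype) Subtype.val_injective,
      map_modByMonic _ hM, hmap]
    exact natDegree_modByMonic_X_pow_sub_C_lt hm _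
  rw [phi, eval₂_eq_sum_range' _ hlt]
  refine Finset.sum_congr rfl fun j _ => ?_
  rw [hco, D.resT_eq ((Q %ₘ M).coeff j).2]

omit [IsDomain O] in
theorem phi_C_mul {p : D.ι} {a : F} (ha : a ∈ D.V p) {P : F[X]}
    (hP : ∀ j < m, cf f m P j ∈ D.V p) (l : ℕ) :
    D.phi ζ p l (C a * P) = D.resT p a * D.phi ζ p l P := by
  rw [phi, phi, Finset.mul_sum]
  refine Finset.sum_congr rfl fun j hj => ?_
  rw [cf_C_mul, D.resT_mul ha (hP j (Finset.mem_range.mp hj)), mul_assoc]

/-- If all evaluations vanish, the values are nilpotent modulo `π`. -/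
theorem inRad_of_phi {s : Set F} (hs : ∀ p, s ⊆ D.V p) (hrad : D.RadHyp E s) (hm : 0 < m)
    (hmu : IsUnit (m : O)) (hf : f ≠ 0) (hζ : IsPrimitiveRoot ζ m)
    (hβ₀ : β₀ ^ m = algebraMap F E f) {P : F[X]}
    (hP : ∀ l < m, aeval (rootAt ζ β₀ l) P ∈ intSet O (algebraMap F E '' s))
    (hphi : ∀ p, ∀ l < m, D.phi ζ p l P = 0) (l : ℕ) :
    InRad π (algebraMap F E '' s) (aeval (rootAt ζ β₀ l) P) := by
  have hmem : ∀ j < m, cf f m P j ^ m * f ^ j ∈ chartF O E s := fun j hj =>
    cf_mem_of_values hm hmu hζ hβ₀ hP hj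
  have hV : ∀ j < m, ∀ p, cf f m P j ∈ D.V p := fun j hj p =>
    D.mem_of_pow_mul hm hf j (D.chart_mem hs (hmem j hj) p)
  have hres : ∀ j < m, ∀ p, D.resT p (cf f m P j) = 0 := by
    intro j hj p
    have h1 := extract_coeff (D.resO p) hζ (fun i => D.resT p (cf f m P i)) (D.g p) hj
    rw [Finset.sum_eq_zero] at h1
    · rcases mul_eq_zero.mp h1.symm with h | h
      · exact absurd h (isUnit_natCast_map (D.resO p) hmu).ne_zero
      · exact (mul_eq_zero.mp h).resolve_right (pow_ne_zero _ (D.g_ne_zero p hf hm))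
    · intro l hl
      have := hphi p l (Finset.mem_range.mp hl)
      rw [phi] at this
      rw [this, mul_zero]
  rw [aeval_eq_sum_cf hm (rootAt_pow hζ hβ₀ l)]
  refine inRad_finset_sum _ _ fun j hj => ?_
  have hj' := Finset.mem_range.mp hj
  obtain ⟨N, w, hw, hNw⟩ := hrad _ (hmem j hj') fun p => by
    rw [D.resT_mul (pow_mem (hV j hj' p) m) (pow_mem (D.f_mem p) j),
      D.resT_pow (hV j hj' p), hres j hj' p, zero_pow hm.ne', zero_mul]
  refine inRad_of_pow (monomial_mem hm (rootAt_pow hζ hβ₀ l) (hmem j hj')) (n := m * N) hw ?_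
  rw [pow_mul, mul_pow, ← pow_mul _ j m, mul_comm j m, pow_mul _ m j, rootAt_pow hζ hβ₀ l,
    ← map_pow, ← map_pow, ← map_mul, ← map_pow, hNw, map_mul, ← IsScalarTower.algebraMap_apply]

end CompData

end FLTAgent.CarayolSquare
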